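import Mathlib

/-!
# ES, part Z: definitions

`idealCount K n` is the number of integral ideals of norm `n` of the number field `K`
(the `n`-th coefficient of the Dedekind zeta function of `K`).
-/

set_option autoImplicit false

open scoped NumberField

namespace Fermat.Agent.ESlib

/-- number of integral ideals of norm `n` -/
noncomputable def idealCount (K : Type*) [Field K] [NumberField K] (n : ℕ) : ℕ :=
  Nat.card {I : Ideal (𝓞 K) // Ideal.absNorm I = n}

/-- `∑_p a_p(K) p^{-s}` -/
noncomputable def primeSum (K : Type*) [Field K] [NumberField K] (s : ℝ) : ℝ :=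
  ∑' p : Nat.Primes, (idealCount K (p : ℕ) : ℝ) * ((p : ℕ) : ℝ) ^ (-s)

end Fermat.Agent.ESlib
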