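import Mathlib

/-!
# ES part Z, step 1: counting ideals of squarefree norm

If every prime `p` of a finite set `U` has at least `n` prime ideals of norm `p` in `𝓞 K`, then
there are at least `n ^ #U` ideals of norm `∏ p ∈ U, p`.
-/

set_option autoImplicit false

open scoped NumberField

namespace Fermat.Agent.ESlib.Z

noncomputable section

variable (K : Type*) [Field K] [NumberField K]

/-- `ℓ` has at least `n` prime ideals of norm `ℓ` in `𝓞 K`. -/
def HasSplit (n ℓ : ℕ) : Prop :=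
  n ≤ Nat.card {P : Ideal (𝓞 K) // P.IsPrime ∧ Ideal.absNorm P = ℓ}

/-- number of ideals of norm `m` -/
def idealCount (m : ℕ) : ℕ := Nat.card {I : Ideal (𝓞 K) // Ideal.absNorm I = m}

instance finite_absNorm_eq (m : ℕ) : Finite {I : Ideal (𝓞 K) // Ideal.absNorm I = m} :=
  Ideal.finite_setOfPred_absNorm_eq m

variable {K}

theorem mul_inj_of_coprime {p d : ℕ} (hp : p.Prime) (hpd : Nat.Coprime p d)
    {P P' I I' : Ideal (𝓞 K)} (hP : P.IsPrime) (hP' : P'.IsPrime)
    (hNP : Ideal.absNorm P = p) (hNP' : Ideal.absNorm P' = p)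
    (hI' : Ideal.absNorm I' = d) (h : P * I = P' * I') : P = P' ∧ I = I' := by
  have hP0 : P ≠ ⊥ := by
    rintro rfl
    rw [Ideal.absNorm_bot] at hNP
    exact hp.ne_zero hNP.symm
  have hP'0 : P' ≠ ⊥ := by
    rintro rfl
    rw [Ideal.absNorm_bot] at hNP'
    exact hp.ne_zero hNP'.symm
  have hle : P' * I' ≤ P := h ▸ (Ideal.mul_le_left : P * I ≤ P)
  have hPP' : P = P' := by
    rcases (Ideal.IsPrime.mul_le hP).mp hle with h1 | h1
    · have hmax : P'.IsMaximal := Ideal.IsPrime.isMaximal hP' hP'0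
      exact (hmax.eq_of_le hP.ne_top h1).symm
    · exfalso
      have := Ideal.absNorm_dvd_absNorm_of_le h1
      rw [hNP, hI'] at this
      have h2 : p ∣ Nat.gcd p d := Nat.dvd_gcd dvd_rfl this
      rw [hpd] at h2
      exact hp.one_lt.ne' (Nat.dvd_one.mp h2)
  refine ⟨hPP', ?_⟩
  subst hPP'
  exact mul_left_cancel₀ (show P ≠ 0 from hP0) h

theorem mul_idealCount_le {n p d : ℕ} (hp : p.Prime) (hpd : Nat.Coprime p d)
    (hs : HasSplit K n p) : n * idealCount K d ≤ idealCount K (p * d) := by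
  have hfin : Finite {P : Ideal (𝓞 K) // P.IsPrime ∧ Ideal.absNorm P = p} :=
    Finite.of_injective
      (fun P => (⟨P.1, P.2.2⟩ : {I : Ideal (𝓞 K) // Ideal.absNorm I = p}))
      (fun a b hab => Subtype.ext (congrArg (fun x : {I : Ideal (𝓞 K) // Ideal.absNorm I = p} => x.1) hab))
  let f : {P : Ideal (𝓞 K) // P.IsPrime ∧ Ideal.absNorm P = p} ×
      {I : Ideal (𝓞 K) // Ideal.absNorm I = d} → {I : Ideal (𝓞 K) // Ideal.absNorm I = p * d} :=
    fun x => ⟨x.1.1 * x.2.1, by rw [map_mul, x.1.2.2, x.2.2]⟩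
  have hf : Function.Injective f := by
    rintro ⟨⟨P, hP, hNP⟩, ⟨I, hI⟩⟩ ⟨⟨P', hP', hNP'⟩, ⟨I', hI'⟩⟩ h
    have h' : P * I = P' * I' := congrArg Subtype.val h
    obtain ⟨h1, h2⟩ := mul_inj_of_coprime hp hpd hP hP' hNP hNP' hI' h'
    subst h1 h2
    rfl
  have h1 := Nat.card_le_card_of_injective f hf
  rw [Nat.card_prod] at h1
  exact (Nat.mul_le_mul_right _ hs).trans h1

theorem pow_card_le_idealCount {n : ℕ} (U : Finset ℕ)
    (hU : ∀ p ∈ U, p.Prime ∧ HasSplit K n p) :
    n ^ U.card ≤ idealCount K (∏ p ∈ U, p) := by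
  induction U using Finset.induction_on with
  | empty =>
    simp only [Finset.card_empty, pow_zero, Finset.prod_empty]
    have : Nonempty {I : Ideal (𝓞 K) // Ideal.absNorm I = 1} := ⟨⟨⊤, by simp⟩⟩
    exact Nat.card_pos
  | insert p U hpU ih =>
    rw [Finset.card_insert_of_notMem hpU, Finset.prod_insert hpU, pow_succ, mul_comm]
    have hp := hU p (Finset.mem_insert_self _ _)
    have hcop : Nat.Coprime p (∏ q ∈ U, q) := by
      refine Nat.Coprime.prod_right fun q hq => ?_
      have hq' := hU q (Finset.mem_insert_of_mem hq)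
      refine (Nat.coprime_primes hp.1 hq'.1).mpr ?_
      rintro rfl
      exact hpU hq
    refine le_trans ?_ (mul_idealCount_le hp.1 hcop hp.2)
    exact Nat.mul_le_mul_left _ (ih fun q hq => hU q (Finset.mem_insert_of_mem hq))

end

end Fermat.Agent.ESlib.Z
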