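import Mathlib
import Fermat.Prelude.Def_FLTPrelim_Ramification
import Fermat.Prelude.Def_EllipticCurve_FrobeniusTrace
import Fermat.Agent.S54lib.FrobExists
import Fermat.Agent.S13.Minkowski
import Fermat.Agent.ES.Z.Count

/-!
# ES part Z, step 4: a Frobenius element fixing `K` forces complete splitting in `K`
-/

set_option autoImplicit false
set_option synthInstance.maxHeartbeats 200000
open scoped Pointwise NumberField
open Polynomial

namespace Fermat.Agent.ESlib.Z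

open Fermat.Agent.FrobExists Fermat.Agent.S13lib

noncomputable section

attribute [local instance] isAlgebraicQb isAlgClosureQb normalQb isGaloisQb isInvariantZb
  topZb discZb contZb

theorem exists_int_sub_mem {R : Type*} [CommRing R] (P : Ideal R) [P.IsPrime] {ℓ : ℕ}
    (hℓ : ℓ.Prime) (hP : (ℓ : R) ∈ P) (x : R) (hx : x ^ ℓ - x ∈ P) : ∃ a : ℤ, x - a ∈ P := by
  have : Fact ℓ.Prime := ⟨hℓ⟩
  have : CharP (R ⧸ P) ℓ := by
    rw [CharP.charP_iff_prime_eq_zero hℓ]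
    have : ((ℓ : ℕ) : R ⧸ P) = Ideal.Quotient.mk P ((ℓ : ℕ) : R) := by simp
    rw [this, Ideal.Quotient.eq_zero_iff_mem]
    exact hP
  let f : ZMod ℓ →+* R ⧸ P := ZMod.castHom (dvd_refl ℓ) (R ⧸ P)
  have hr : (X ^ ℓ - X : (ZMod ℓ)[X]).roots = Finset.univ.val := by
    have := FiniteField.roots_X_pow_card_sub_X (ZMod ℓ)
    rwa [ZMod.card] at this
  have hdeg : (X ^ ℓ - X : (ZMod ℓ)[X]).natDegree = ℓ :=
    FiniteField.X_pow_card_sub_X_natDegree_eq (ZMod ℓ) hℓ.one_lt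
  have hsplit : (X ^ ℓ - X : (ZMod ℓ)[X]).Splits := by
    rw [Polynomial.splits_iff_card_roots, hr, hdeg]
    simp
  have hne : ((X ^ ℓ - X : (ZMod ℓ)[X]).map f) ≠ 0 := by
    rw [Ne, Polynomial.map_eq_zero]
    intro h
    rw [h] at hdeg
    simp at hdeg
    exact hℓ.ne_zero hdeg.symm
  have hmem : Ideal.Quotient.mk P x ∈ ((X ^ ℓ - X : (ZMod ℓ)[X]).map f).roots := by
    rw [Polynomial.mem_roots hne]
    simp only [Polynomial.map_sub, Polynomial.map_pow, Polynomial.map_X, IsRoot.def, eval_sub,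
      eval_pow, eval_X]
    rw [← map_pow, ← map_sub, Ideal.Quotient.eq_zero_iff_mem]
    exact hx
  rw [hsplit.roots_map_of_injective f.injective, hr, Multiset.mem_map] at hmem
  obtain ⟨a, _, ha⟩ := hmem
  refine ⟨(a.val : ℤ), ?_⟩
  rw [← Ideal.Quotient.eq_zero_iff_mem, map_sub, ← ha, sub_eq_zero]
  have h0 : a = ((a.val : ℕ) : ZMod ℓ) := by simp
  have h1 : f a = ((a.val : ℕ) : R ⧸ P) := by
    conv_lhs => rw [h0]
    exact map_natCast f _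
  rw [h1, Int.cast_natCast, map_natCast]

theorem frob_sub_pow_mem (A : ValuationSubring Qb) {ℓ : ℕ} {σ : GQ} (h : A.IsFrobeniusAt σ ℓ)
    (b : Zb) : σ • b - b ^ ℓ ∈ primeOf A := by
  obtain ⟨hσ, hf⟩ := h
  have h1 := hf (IsLocalRing.residue A (incl A b))
  rw [← IsLocalRing.ResidueField.residue_smul, ← map_pow] at h1
  show incl A (σ • b - b ^ ℓ) ∈ IsLocalRing.maximalIdeal A
  rw [map_sub, map_pow, ← IsLocalRing.residue_eq_zero_iff, map_sub, sub_eq_zero]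
  exact h1

theorem absNorm_eq_of_forall_int {K : Type*} [Field K] [NumberField K] (P : Ideal (𝓞 K))
    [P.IsPrime] {ℓ : ℕ} (hℓ : ℓ.Prime) (hP : (ℓ : 𝓞 K) ∈ P) (h : ∀ x : 𝓞 K, ∃ a : ℤ, x - a ∈ P) :
    Ideal.absNorm P = ℓ := by
  have : Fact ℓ.Prime := ⟨hℓ⟩
  have : CharP (𝓞 K ⧸ P) ℓ := by
    rw [CharP.charP_iff_prime_eq_zero hℓ]
    have : ((ℓ : ℕ) : 𝓞 K ⧸ P) = Ideal.Quotient.mk P ((ℓ : ℕ) : 𝓞 K) := by simp
    rw [this, Ideal.Quotient.eq_zero_iff_mem]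
    exact hP
  let f : ZMod ℓ →+* 𝓞 K ⧸ P := ZMod.castHom (dvd_refl ℓ) (𝓞 K ⧸ P)
  have hbij : Function.Bijective f := by
    refine ⟨f.injective, fun y => ?_⟩
    obtain ⟨x, rfl⟩ := Ideal.Quotient.mk_surjective y
    obtain ⟨a, ha⟩ := h x
    refine ⟨(a : ZMod ℓ), ?_⟩
    rw [map_intCast]
    rw [← Ideal.Quotient.eq_zero_iff_mem, map_sub, sub_eq_zero, map_intCast] at ha
    exact ha.symm
  rw [Ideal.absNorm_apply, Submodule.cardQuot_apply]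
  have := Nat.card_congr (Equiv.ofBijective f hbij)
  rw [Nat.card_zmod] at this
  exact this.symm

variable (K : IntermediateField ℚ Qb)

attribute [local instance] algK nfK

instance finite_prime_absNorm_eq (F : Type*) [Field F] [NumberField F] (m : ℕ) :
    Finite {P : Ideal (𝓞 F) // P.IsPrime ∧ Ideal.absNorm P = m} :=
  Finite.of_injective
    (fun P => (⟨P.1, P.2.2⟩ : {I : Ideal (𝓞 F) // Ideal.absNorm I = m}))
    (fun _ _ hab => Subtype.ext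
      (congrArg (fun x : {I : Ideal (𝓞 F) // Ideal.absNorm I = m} => x.1) hab))

/-- If the inertia group at `A` and one Frobenius element at `A` fix the finite Galois extension
`K` of `ℚ`, then `ℓ` has `[K : ℚ]` primes of norm `ℓ` in `K`. -/
theorem hasSplit_of_frobenius [FiniteDimensional ℚ K] [IsGalois ℚ K] {ℓ : ℕ} (hℓ : ℓ.Prime)
    (A : ValuationSubring Qb) (hA : A.LiesOverPrime ℓ)
    (hin : A.inertiaSubgroupIn ℚ ≤ K.fixingSubgroup) (σ : GQ) (hσ : A.IsFrobeniusAt σ ℓ)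
    (hσK : σ ∈ K.fixingSubgroup) : HasSplit K (Module.finrank ℚ K) ℓ := by
  set 𝔓 : Ideal (𝓞 K) := (primeOf A).under (𝓞 K) with h𝔓
  have hℓ𝔓 : (ℓ : 𝓞 K) ∈ 𝔓 := by
    rw [h𝔓, Ideal.mem_comap, mem_primeOf]
    have : (((algebraMap (𝓞 K) Zb (ℓ : 𝓞 K)) : Zb) : Qb) = (ℓ : Qb) := by
      rw [map_natCast]
      simp
    rw [this]
    exact hA
  have hpow : ∀ x : 𝓞 K, x ^ ℓ - x ∈ 𝔓 := by
    intro x
    rw [h𝔓, Ideal.mem_comap]
    have h1 := frob_sub_pow_mem A hσ (algebraMap (𝓞 K) Zb x)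
    have hfix : σ • (algebraMap (𝓞 K) Zb x) = algebraMap (𝓞 K) Zb x :=
      Subtype.ext (hσK (x : K))
    rw [hfix] at h1
    rw [map_sub, map_pow, ← neg_sub]
    exact neg_mem h1
  have hint : ∀ x : 𝓞 K, ∃ a : ℤ, x - a ∈ 𝔓 := fun x => exists_int_sub_mem 𝔓 hℓ hℓ𝔓 x (hpow x)
  have hintτ : ∀ (τ : Gal(K/ℚ)) (x : 𝓞 K), ∃ a : ℤ, x - a ∈ τ • 𝔓 := by
    intro τ x
    obtain ⟨a, ha⟩ := hint (τ⁻¹ • x)
    refine ⟨a, ?_⟩
    have h1 : τ • (τ⁻¹ • x - (a : 𝓞 K)) ∈ τ • 𝔓 := Ideal.smul_mem_pointwise_smul_iff.mpr ha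
    rw [smul_sub, smul_inv_smul] at h1
    have h2 : τ • ((a : ℤ) : 𝓞 K) = ((a : ℤ) : 𝓞 K) :=
      map_intCast (MulSemiringAction.toRingHom Gal(K/ℚ) (𝓞 K) τ) a
    rwa [h2] at h1
  have hℓτ : ∀ τ : Gal(K/ℚ), (ℓ : 𝓞 K) ∈ τ • 𝔓 := by
    intro τ
    have h1 : τ • ((ℓ : ℕ) : 𝓞 K) ∈ τ • 𝔓 := Ideal.smul_mem_pointwise_smul_iff.mpr hℓ𝔓
    have h2 : τ • ((ℓ : ℕ) : 𝓞 K) = ((ℓ : ℕ) : 𝓞 K) :=
      map_natCast (MulSemiringAction.toRingHom Gal(K/ℚ) (𝓞 K) τ) ℓ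
    rwa [h2] at h1
  let f : Gal(K/ℚ) → {P : Ideal (𝓞 K) // P.IsPrime ∧ Ideal.absNorm P = ℓ} := fun τ =>
    ⟨τ • 𝔓, inferInstance, absNorm_eq_of_forall_int (τ • 𝔓) hℓ (hℓτ τ) (hintτ τ)⟩
  have htriv : ∀ τ : Gal(K/ℚ), τ • 𝔓 = 𝔓 → τ = 1 := by
    intro τ hτ
    have hτx : ∀ x : 𝓞 K, τ • x - x ∈ (primeOf A).under (𝓞 K) := by
      intro x
      obtain ⟨a, ha⟩ := hint x
      have h1 : τ • (x - (a : 𝓞 K)) ∈ τ • 𝔓 := Ideal.smul_mem_pointwise_smul_iff.mpr ha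
      rw [hτ, smul_sub] at h1
      have h2 : τ • ((a : ℤ) : 𝓞 K) = ((a : ℤ) : 𝓞 K) :=
        map_intCast (MulSemiringAction.toRingHom Gal(K/ℚ) (𝓞 K) τ) a
      rw [h2] at h1
      have h3 := sub_mem h1 ha
      have h4 : τ • x - (a : 𝓞 K) - (x - (a : 𝓞 K)) = τ • x - x := by ring
      rw [h4] at h3
      exact h3
    obtain ⟨σ', hσP, hσb, hσK'⟩ := exists_lift_inertia K (primeOf A) τ hτx
    have hσH : σ' ∈ K.fixingSubgroup := hin (mem_inertiaSubgroupIn A hℓ hA σ' hσP hσb)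
    ext x
    have h1 : σ' (x : Qb) = (x : Qb) := hσH x
    rw [hσK'] at h1
    simpa using h1
  have hf : Function.Injective f := by
    intro τ₁ τ₂ h
    have h1 : τ₁ • 𝔓 = τ₂ • 𝔓 := congrArg Subtype.val h
    have h2 : (τ₂⁻¹ * τ₁) • 𝔓 = 𝔓 := by rw [mul_smul, h1, inv_smul_smul]
    have h3 := htriv _ h2
    rw [inv_mul_eq_one] at h3
    exact h3.symm
  have h1 := Nat.card_le_card_of_injective f hf
  rw [IsGalois.card_aut_eq_finrank] at h1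
  exact h1

end

end Fermat.Agent.ESlib.Z
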