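import Mathlib
import Fermat.Agent.ES.Z.Defs
import Fermat.Agent.ES.Z.Split

/-!
# ES part Z: ideals of prime norm in a Galois number field, at primes not dividing the discriminant
-/

set_option autoImplicit false
set_option synthInstance.maxHeartbeats 200000
open scoped Pointwise NumberField

namespace Fermat.Agent.ESlib.Z

noncomputable section

variable {K : Type*} [Field K] [NumberField K]

/-- An ideal of prime norm `p` is prime, contains `p`, and has residue field `𝔽_p`. -/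
theorem forall_int_of_absNorm_eq {p : ℕ} (hp : p.Prime) (I : Ideal (𝓞 K))
    (hI : Ideal.absNorm I = p) :
    I.IsPrime ∧ (p : 𝓞 K) ∈ I ∧ ∀ x : 𝓞 K, ∃ a : ℤ, x - a ∈ I := by
  have hprime : I.IsPrime := Ideal.isPrime_of_irreducible_absNorm (hI ▸ hp)
  have hmem : (p : 𝓞 K) ∈ I := hI ▸ Ideal.absNorm_mem I
  refine ⟨hprime, hmem, ?_⟩
  have : Fact p.Prime := ⟨hp⟩
  have : CharP (𝓞 K ⧸ I) p := by
    rw [CharP.charP_iff_prime_eq_zero hp]
    have : ((p : ℕ) : 𝓞 K ⧸ I) = Ideal.Quotient.mk I ((p : ℕ) : 𝓞 K) := by simp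
    rw [this, Ideal.Quotient.eq_zero_iff_mem]
    exact hmem
  let f : ZMod p →+* 𝓞 K ⧸ I := ZMod.castHom (dvd_refl p) (𝓞 K ⧸ I)
  have hcard : Nat.card (𝓞 K ⧸ I) = p := by
    rw [← hI, Ideal.absNorm_apply, Submodule.cardQuot_apply]
  have hfin : Finite (𝓞 K ⧸ I) := Nat.finite_of_card_ne_zero (hcard ▸ hp.ne_zero)
  have hbij : Function.Bijective f :=
    Function.Injective.bijective_of_nat_card_le f.injective (by rw [hcard, Nat.card_zmod])
  intro x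
  obtain ⟨a, ha⟩ := hbij.2 (Ideal.Quotient.mk I x)
  refine ⟨(a.val : ℤ), ?_⟩
  rw [← Ideal.Quotient.eq_zero_iff_mem, map_sub, ← ha, sub_eq_zero]
  have h0 : a = ((a.val : ℕ) : ZMod p) := by simp
  have h1 : f a = ((a.val : ℕ) : 𝓞 K ⧸ I) := by
    conv_lhs => rw [h0]
    exact map_natCast f _
  rw [h1, Int.cast_natCast, map_natCast]

theorem smul_intCast (τ : Gal(K/ℚ)) (a : ℤ) : τ • ((a : ℤ) : 𝓞 K) = ((a : ℤ) : 𝓞 K) :=
  map_intCast (MulSemiringAction.toRingHom Gal(K/ℚ) (𝓞 K) τ) a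

theorem smul_natCast (τ : Gal(K/ℚ)) (a : ℕ) : τ • ((a : ℕ) : 𝓞 K) = ((a : ℕ) : 𝓞 K) :=
  map_natCast (MulSemiringAction.toRingHom Gal(K/ℚ) (𝓞 K) τ) a

theorem forall_int_smul (τ : Gal(K/ℚ)) {I : Ideal (𝓞 K)} (h : ∀ x : 𝓞 K, ∃ a : ℤ, x - a ∈ I)
    (x : 𝓞 K) : ∃ a : ℤ, x - a ∈ τ • I := by
  obtain ⟨a, ha⟩ := h (τ⁻¹ • x)
  refine ⟨a, ?_⟩
  have h1 : τ • (τ⁻¹ • x - (a : 𝓞 K)) ∈ τ • I := Ideal.smul_mem_pointwise_smul_iff.mpr ha
  rwa [smul_sub, smul_inv_smul, smul_intCast] at h1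

theorem natCast_mem_smul (τ : Gal(K/ℚ)) {I : Ideal (𝓞 K)} {p : ℕ} (h : (p : 𝓞 K) ∈ I) :
    (p : 𝓞 K) ∈ τ • I := by
  have h1 : τ • ((p : ℕ) : 𝓞 K) ∈ τ • I := Ideal.smul_mem_pointwise_smul_iff.mpr h
  rwa [smul_natCast] at h1

theorem absNorm_smul_eq {p : ℕ} (hp : p.Prime) (τ : Gal(K/ℚ)) (I : Ideal (𝓞 K))
    (hI : Ideal.absNorm I = p) : Ideal.absNorm (τ • I) = p := by
  obtain ⟨h1, h2, h3⟩ := forall_int_of_absNorm_eq hp I hI
  exact absNorm_eq_of_forall_int (τ • I) hp (natCast_mem_smul τ h2) (forall_int_smul τ h3)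

omit [NumberField K] in
theorem under_eq_span {p : ℕ} (hp : p.Prime) (P : Ideal (𝓞 K)) [P.IsPrime] (h : (p : 𝓞 K) ∈ P) :
    P.under ℤ = Ideal.span {(p : ℤ)} := by
  have : Fact p.Prime := ⟨hp⟩
  have hmax : (Ideal.span {(p : ℤ)}).IsMaximal := Int.ideal_span_isMaximal_of_prime p
  refine (hmax.eq_of_le (Ideal.IsPrime.ne_top inferInstance) ?_).symm
  rw [Ideal.span_singleton_le_iff_mem, Ideal.mem_comap]
  simpa using h

variable [IsGalois ℚ K]

/-- transitivity of the Galois action on the primes above `p` -/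
theorem exists_smul_eq {p : ℕ} (hp : p.Prime) (P Q : Ideal (𝓞 K)) [P.IsPrime] [Q.IsPrime]
    (hP : (p : 𝓞 K) ∈ P) (hQ : (p : 𝓞 K) ∈ Q) : ∃ τ : Gal(K/ℚ), Q = τ • P :=
  Algebra.IsInvariant.exists_smul_of_under_eq ℤ (𝓞 K) Gal(K/ℚ) P Q
    (by rw [under_eq_span hp P hP, under_eq_span hp Q hQ])

/-- the inertia group is trivial at primes not dividing the discriminant -/
theorem eq_one_of_not_dvd_discr {p : ℕ} (hp : p.Prime) (hd : ¬ (p : ℤ) ∣ NumberField.discr K)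
    (P : Ideal (𝓞 K)) [P.IsPrime] (hP : (p : 𝓞 K) ∈ P) (τ : Gal(K/ℚ))
    (hτ : ∀ x : 𝓞 K, τ • x - x ∈ P) : τ = 1 := by
  have hunr : Algebra.IsUnramifiedAt ℤ P :=
    (NumberField.not_dvd_discr_iff_forall_mem K (𝓞 K) (Nat.prime_iff_prime_int.mp hp)).mp hd P
      inferInstance (by simpa using hP)
  have hpne : P.under ℤ ≠ ⊥ := by
    rw [under_eq_span hp P hP, Ne, Ideal.span_singleton_eq_bot]
    exact_mod_cast hp.ne_zero
  have : (P.under ℤ).IsMaximal := Ideal.IsPrime.isMaximal inferInstance hpne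
  have hcard : Nat.card (P.inertia Gal(K/ℚ)) = 1 := by
    rw [Ideal.card_inertia_eq_ramificationIdxIn (P.under ℤ) P,
      Ideal.ramificationIdxIn_eq_ramificationIdx (P.under ℤ) P Gal(K/ℚ)]
    exact Ideal.ramificationIdx_eq_one_of_isUnramifiedAt
  rw [Nat.card_eq_one_iff_unique] at hcard
  have h1 : (⟨τ, hτ⟩ : P.inertia Gal(K/ℚ)) = 1 := hcard.1.elim _ _
  exact congrArg Subtype.val h1

omit [IsGalois ℚ K] in
theorem sub_mem_of_smul_eq {P : Ideal (𝓞 K)} (h : ∀ x : 𝓞 K, ∃ a : ℤ, x - a ∈ P)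
    (τ : Gal(K/ℚ)) (hτ : τ • P = P) (x : 𝓞 K) : τ • x - x ∈ P := by
  obtain ⟨a, ha⟩ := h x
  have h1 : τ • (x - (a : 𝓞 K)) ∈ τ • P := Ideal.smul_mem_pointwise_smul_iff.mpr ha
  rw [hτ, smul_sub, smul_intCast] at h1
  have h3 := sub_mem h1 ha
  have h4 : τ • x - (a : 𝓞 K) - (x - (a : 𝓞 K)) = τ • x - x := by ring
  rwa [h4] at h3

/-- (G1) for Galois fields -/
theorem idealCount_le_finrank {p : ℕ} (hp : p.Prime) :
    Fermat.Agent.ESlib.idealCount K p ≤ Module.finrank ℚ K := by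
  unfold Fermat.Agent.ESlib.idealCount
  by_cases hne : Nonempty {I : Ideal (𝓞 K) // Ideal.absNorm I = p}
  · obtain ⟨⟨I₀, hI₀⟩⟩ := hne
    obtain ⟨h1, h2, -⟩ := forall_int_of_absNorm_eq hp I₀ hI₀
    let f : Gal(K/ℚ) → {I : Ideal (𝓞 K) // Ideal.absNorm I = p} := fun τ =>
      ⟨τ • I₀, absNorm_smul_eq hp τ I₀ hI₀⟩
    have hf : Function.Surjective f := by
      rintro ⟨I, hI⟩
      obtain ⟨h1', h2', -⟩ := forall_int_of_absNorm_eq hp I hI
      obtain ⟨τ, hτ⟩ := exists_smul_eq hp I₀ I h2 h2'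
      exact ⟨τ, Subtype.ext hτ.symm⟩
    have := Nat.card_le_card_of_surjective f hf
    rwa [IsGalois.card_aut_eq_finrank] at this
  · rw [not_nonempty_iff] at hne
    rw [Nat.card_of_isEmpty]
    exact Nat.zero_le _

/-- (G2)+(G4): complete splitting -/
theorem finrank_le_idealCount {p : ℕ} (hp : p.Prime) (hd : ¬ (p : ℤ) ∣ NumberField.discr K)
    (P : Ideal (𝓞 K)) [P.IsPrime] (hP : (p : 𝓞 K) ∈ P) (hpow : ∀ x : 𝓞 K, x ^ p - x ∈ P) :
    Module.finrank ℚ K ≤ Fermat.Agent.ESlib.idealCount K p := by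
  unfold Fermat.Agent.ESlib.idealCount
  have hint : ∀ x : 𝓞 K, ∃ a : ℤ, x - a ∈ P := fun x => exists_int_sub_mem P hp hP x (hpow x)
  let f : Gal(K/ℚ) → {I : Ideal (𝓞 K) // Ideal.absNorm I = p} := fun τ =>
    ⟨τ • P, absNorm_eq_of_forall_int (τ • P) hp (natCast_mem_smul τ hP) (forall_int_smul τ hint)⟩
  have hf : Function.Injective f := by
    intro τ₁ τ₂ h
    have h1 : τ₁ • P = τ₂ • P := congrArg Subtype.val h
    have h2 : (τ₂⁻¹ * τ₁) • P = P := by rw [mul_smul, h1, inv_smul_smul]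
    have h3 := eq_one_of_not_dvd_discr hp hd P hP _ (sub_mem_of_smul_eq hint _ h2)
    rw [inv_mul_eq_one] at h3
    exact h3.symm
  have h1 := Nat.card_le_card_of_injective f hf
  rwa [IsGalois.card_aut_eq_finrank] at h1

/-- a nontrivial decomposition group at an unramified prime: no ideal of norm `p` -/
theorem idealCount_eq_zero {p : ℕ} (hp : p.Prime) (hd : ¬ (p : ℤ) ∣ NumberField.discr K)
    (P : Ideal (𝓞 K)) [P.IsPrime] (hP : (p : 𝓞 K) ∈ P) (τ : Gal(K/ℚ)) (hτP : τ • P = P)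
    (hτ : τ ≠ 1) : Fermat.Agent.ESlib.idealCount K p = 0 := by
  unfold Fermat.Agent.ESlib.idealCount
  by_contra hne
  have hne' : Nonempty {I : Ideal (𝓞 K) // Ideal.absNorm I = p} := by
    by_contra h
    rw [not_nonempty_iff] at h
    exact hne Nat.card_of_isEmpty
  obtain ⟨⟨I, hI⟩⟩ := hne'
  obtain ⟨h1, h2, h3⟩ := forall_int_of_absNorm_eq hp I hI
  obtain ⟨g, hg⟩ := exists_smul_eq hp I P h2 hP
  have hint : ∀ x : 𝓞 K, ∃ a : ℤ, x - a ∈ P := hg ▸ forall_int_smul g h3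
  exact hτ (eq_one_of_not_dvd_discr hp hd P hP τ (sub_mem_of_smul_eq hint τ hτP))

end

end Fermat.Agent.ESlib.Z
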