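import Mathlib
import Fermat.Agent.ES.Z.Unram

/-!
# ES part Z: the final group theoretic statement (modulo the analytic input `NoTwoFields`)

`eq_top_or_eq_top_of_noTwoFields`: two closed normal subgroups `H₁`, `H₂` of `G_ℚ` such that for
almost every prime `ℓ` some Frobenius element at `ℓ` lies in `H₁ ∪ H₂`: then `H₁ = ⊤` or `H₂ = ⊤`.
-/

set_option autoImplicit false
set_option synthInstance.maxHeartbeats 200000
open scoped Pointwise NumberField

namespace Fermat.Agent.ESlib.Z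

open Fermat.Agent.FrobExists Fermat.Agent.S13lib

noncomputable section

attribute [local instance] isAlgebraicQb isAlgClosureQb normalQb isGaloisQb isInvariantZb
  topZb discZb contZb nfK algK

/-- The analytic input (helper15's `no_two_fields`). -/
def NoTwoFields : Prop :=
  ∀ (K₁ K₂ K₃ : Type) [Field K₁] [NumberField K₁] [Field K₂] [NumberField K₂]
    [Field K₃] [NumberField K₃], 2 ≤ Module.finrank ℚ K₁ → 2 ≤ Module.finrank ℚ K₂ →
    ∀ T : Finset ℕ, (∀ p : ℕ, p.Prime → p ∉ T →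
      (1 : ℝ) ≤ (Fermat.Agent.ESlib.idealCount K₁ p : ℝ) / Module.finrank ℚ K₁ +
        (Fermat.Agent.ESlib.idealCount K₂ p : ℝ) / Module.finrank ℚ K₂ -
        (Fermat.Agent.ESlib.idealCount K₃ p : ℝ) / Module.finrank ℚ K₃) → False

theorem smul_mem_primeOf (A : ValuationSubring Qb) {σ : GQ} (hσ : σ ∈ A.decompositionSubgroup ℚ)
    {b : Zb} (hb : b ∈ primeOf A) : σ • b ∈ primeOf A := by
  set g : A.decompositionSubgroup ℚ := ⟨σ, hσ⟩ with hg
  have h1 : incl A b ∈ IsLocalRing.maximalIdeal A := hb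
  show incl A (σ • b) ∈ IsLocalRing.maximalIdeal A
  have h2 : incl A (σ • b) = g • incl A b := rfl
  rw [IsLocalRing.mem_maximalIdeal, mem_nonunits_iff] at h1
  rw [h2, IsLocalRing.mem_maximalIdeal, mem_nonunits_iff]
  intro h
  apply h1
  have h3 := h.map (MulSemiringAction.toRingHom (A.decompositionSubgroup ℚ) A g⁻¹)
  rwa [MulSemiringAction.toRingHom_apply, inv_smul_smul] at h3

variable (K : IntermediateField ℚ Qb)

theorem natCast_mem_under (A : ValuationSubring Qb) {ℓ : ℕ} (hA : A.LiesOverPrime ℓ) :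
    (ℓ : 𝓞 K) ∈ (primeOf A).under (𝓞 K) := by
  rw [Ideal.mem_comap, mem_primeOf]
  have : (((algebraMap (𝓞 K) Zb (ℓ : 𝓞 K)) : Zb) : Qb) = (ℓ : Qb) := by
    rw [map_natCast]
    simp
  rw [this]
  exact hA

theorem pow_sub_mem_under (A : ValuationSubring Qb) {ℓ : ℕ} {σ : GQ} (hσ : A.IsFrobeniusAt σ ℓ)
    (hσK : σ ∈ K.fixingSubgroup) (x : 𝓞 K) : x ^ ℓ - x ∈ (primeOf A).under (𝓞 K) := by
  rw [Ideal.mem_comap]
  have h1 := frob_sub_pow_mem A hσ (algebraMap (𝓞 K) Zb x)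
  have hfix : σ • (algebraMap (𝓞 K) Zb x) = algebraMap (𝓞 K) Zb x :=
    Subtype.ext (hσK (x : K))
  rw [hfix] at h1
  rw [map_sub, map_pow, ← neg_sub]
  exact neg_mem h1

theorem restrict_smul_under [FiniteDimensional ℚ K] [IsGalois ℚ K] (A : ValuationSubring Qb)
    {ℓ : ℕ} (hℓ : ℓ.Prime) (hA : A.LiesOverPrime ℓ) {σ : GQ}
    (hσ : σ ∈ A.decompositionSubgroup ℚ) :
    (AlgEquiv.restrictNormalHom K σ : Gal(K/ℚ)) • (primeOf A).under (𝓞 K) =
      (primeOf A).under (𝓞 K) := by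
  set τ : Gal(K/ℚ) := AlgEquiv.restrictNormalHom K σ with hτ
  set P : Ideal (𝓞 K) := (primeOf A).under (𝓞 K) with hP
  have hfw : ∀ x : 𝓞 K, x ∈ P → τ • x ∈ P := by
    intro x hx
    rw [hP, Ideal.mem_comap] at hx ⊢
    have h1 := smul_mem_primeOf A hσ hx
    have h2 : algebraMap (𝓞 K) Zb (τ • x) = σ • algebraMap (𝓞 K) Zb x := by
      apply Subtype.ext
      exact AlgEquiv.restrictNormal_commutes σ K (x : K)
    rwa [h2]
  have hle : τ • P ≤ P := by
    intro y hy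
    rw [Ideal.mem_pointwise_smul_iff_inv_smul_mem] at hy
    have := hfw _ hy
    rwa [smul_inv_smul] at this
  have hne : τ • P ≠ ⊥ := by
    intro h
    have h1 : (ℓ : 𝓞 K) ∈ τ • P := natCast_mem_smul τ (natCast_mem_under K A hA)
    rw [h, Ideal.mem_bot] at h1
    exact hℓ.ne_zero (by exact_mod_cast h1)
  have hmax : (τ • P).IsMaximal := Ideal.IsPrime.isMaximal inferInstance hne
  exact hmax.eq_of_le (Ideal.IsPrime.ne_top inferInstance) hle

theorem restrict_ne_one [FiniteDimensional ℚ K] [IsGalois ℚ K] {σ : GQ}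
    (hσ : σ ∉ K.fixingSubgroup) : (AlgEquiv.restrictNormalHom K σ : Gal(K/ℚ)) ≠ 1 := by
  intro h
  apply hσ
  intro x
  have h1 := AlgEquiv.restrictNormal_commutes σ K x
  have h2 : AlgEquiv.restrictNormal σ K = 1 := h
  rw [h2] at h1
  exact h1.symm

/-- the three local facts on `a_ℓ(K)` -/
theorem finrank_le_idealCount_of_frobenius [FiniteDimensional ℚ K] [IsGalois ℚ K] {ℓ : ℕ}
    (hℓ : ℓ.Prime) (hd : ¬ (ℓ : ℤ) ∣ NumberField.discr K) (A : ValuationSubring Qb)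
    (hA : A.LiesOverPrime ℓ) {σ : GQ} (hσ : A.IsFrobeniusAt σ ℓ) (hσK : σ ∈ K.fixingSubgroup) :
    Module.finrank ℚ K ≤ Fermat.Agent.ESlib.idealCount K ℓ :=
  finrank_le_idealCount hℓ hd ((primeOf A).under (𝓞 K)) (natCast_mem_under K A hA)
    (pow_sub_mem_under K A hσ hσK)

theorem idealCount_eq_zero_of_frobenius [FiniteDimensional ℚ K] [IsGalois ℚ K] {ℓ : ℕ}
    (hℓ : ℓ.Prime) (hd : ¬ (ℓ : ℤ) ∣ NumberField.discr K) (A : ValuationSubring Qb)
    (hA : A.LiesOverPrime ℓ) {σ : GQ} (hσ : A.IsFrobeniusAt σ ℓ) (hσK : σ ∉ K.fixingSubgroup) :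
    Fermat.Agent.ESlib.idealCount K ℓ = 0 :=
  idealCount_eq_zero hℓ hd ((primeOf A).under (𝓞 K)) (natCast_mem_under K A hA)
    (AlgEquiv.restrictNormalHom K σ)
    (restrict_smul_under K A hℓ hA hσ.mem_decompositionSubgroup) (restrict_ne_one K hσK)

/-- a proper closed normal subgroup fixes a nontrivial finite Galois extension -/
theorem exists_finite_galois (H : Subgroup GQ) [H.Normal] (hc : IsClosed (H : Set GQ))
    (hne : H ≠ ⊤) : ∃ L : IntermediateField ℚ Qb, FiniteDimensional ℚ L ∧ IsGalois ℚ L ∧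
      2 ≤ Module.finrank ℚ L ∧ H ≤ L.fixingSubgroup := by
  set K : IntermediateField ℚ Qb := IntermediateField.fixedField H with hK
  have hfix : K.fixingSubgroup = H := InfiniteGalois.fixingSubgroup_fixedField ⟨H, hc⟩
  have hgal : IsGalois ℚ K :=
    (InfiniteGalois.normal_iff_isGalois K).mp (by rw [hfix]; infer_instance)
  have hKne : K ≠ ⊥ := by
    intro h
    apply hne
    rw [← hfix, h]
    exact IntermediateField.fixingSubgroup_bot
  obtain ⟨x, hxK, hx⟩ := SetLike.exists_of_lt (bot_lt_iff_ne_bot.mpr hKne)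
  have hint : IsIntegral ℚ x := (Algebra.IsAlgebraic.isAlgebraic x).isIntegral
  have hfd : FiniteDimensional ℚ (IntermediateField.adjoin ℚ {x}) :=
    IntermediateField.adjoin.finiteDimensional hint
  set L : IntermediateField ℚ Qb :=
    IntermediateField.normalClosure ℚ (IntermediateField.adjoin ℚ {x}) Qb with hL
  have hLK : L ≤ K := by
    have hKn : Normal ℚ K := inferInstance
    refine IntermediateField.normalClosure_le_iff_of_normal.mpr ?_
    rw [IntermediateField.adjoin_le_iff]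
    intro y hy
    rw [Set.mem_singleton_iff] at hy
    rw [hy]
    exact hxK
  have hLfd : FiniteDimensional ℚ L := normalClosure.is_finiteDimensional ℚ _ Qb
  have hLn : Normal ℚ L := normalClosure.normal ℚ _ Qb
  have hxL : x ∈ L :=
    (IntermediateField.le_normalClosure (IntermediateField.adjoin ℚ {x}))
      (IntermediateField.mem_adjoin_simple_self ℚ x)
  refine ⟨L, hLfd, ⟨⟩, ?_, ?_⟩
  · have hpos : 0 < Module.finrank ℚ L := Module.finrank_pos
    have h1 : Module.finrank ℚ L ≠ 1 := by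
      intro h
      rw [IntermediateField.finrank_eq_one_iff] at h
      rw [h] at hxL
      exact hx hxL
    omega
  · rw [← hfix]
    exact IntermediateField.fixingSubgroup_antitone hLK

theorem not_dvd_of_notMem_primeFactors {p : ℕ} (hp : p.Prime) {d : ℤ} (hd : d ≠ 0)
    (h : p ∉ d.natAbs.primeFactors) : ¬ (p : ℤ) ∣ d := by
  intro hdvd
  apply h
  rw [Nat.mem_primeFactors]
  exact ⟨hp, Int.natCast_dvd.mp hdvd, Int.natAbs_ne_zero.mpr hd⟩

/-- **ES part Z, final form** (modulo the analytic input). -/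
theorem eq_top_or_eq_top_of_noTwoFields (hZ : NoTwoFields) (H₁ H₂ : Subgroup GQ)
    [H₁.Normal] [H₂.Normal] (h₁ : IsClosed (H₁ : Set GQ)) (h₂ : IsClosed (H₂ : Set GQ))
    (S : Finset ℕ)
    (hF : ∀ ℓ : ℕ, ℓ.Prime → ℓ ∉ S → ∃ A : ValuationSubring (AlgebraicClosure ℚ),
      A.LiesOverPrime ℓ ∧ ∃ σ : GQ, A.IsFrobeniusAt σ ℓ ∧ (σ ∈ H₁ ∨ σ ∈ H₂)) :
    H₁ = ⊤ ∨ H₂ = ⊤ := by
  by_contra hcon
  push Not at hcon
  obtain ⟨L₁, hfd₁, hg₁, hr₁, hH₁⟩ := exists_finite_galois H₁ h₁ hcon.1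
  obtain ⟨L₂, hfd₂, hg₂, hr₂, hH₂⟩ := exists_finite_galois H₂ h₂ hcon.2
  set L₃ : IntermediateField ℚ Qb := L₁ ⊔ L₂ with hL₃
  have hnor₁ : @Normal ℚ L₁ _ _ L₁.algebra' := hg₁.to_normal
  have hnor₂ : @Normal ℚ L₂ _ _ L₂.algebra' := hg₂.to_normal
  have hnor₃ : Normal ℚ L₃ := @IntermediateField.normal_sup ℚ Qb _ _ _ L₁ L₂ hnor₁ hnor₂
  have hfd₃ : FiniteDimensional ℚ L₃ :=
    inferInstanceAs (FiniteDimensional ℚ (L₁ ⊔ L₂ : IntermediateField ℚ Qb))
  have hg₃ : IsGalois ℚ L₃ := ⟨⟩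
  have hn₁ : (0 : ℝ) < (Module.finrank ℚ L₁ : ℝ) := by
    have : 0 < Module.finrank ℚ L₁ := by omega
    exact_mod_cast this
  have hn₂ : (0 : ℝ) < (Module.finrank ℚ L₂ : ℝ) := by
    have : 0 < Module.finrank ℚ L₂ := by omega
    exact_mod_cast this
  have hn₃ : (0 : ℝ) < (Module.finrank ℚ L₃ : ℝ) := by
    have : 0 < Module.finrank ℚ L₃ := Module.finrank_pos
    exact_mod_cast this
  refine hZ L₁ L₂ L₃ hr₁ hr₂
    (S ∪ (NumberField.discr L₁).natAbs.primeFactors ∪ (NumberField.discr L₂).natAbs.primeFactors ∪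
      (NumberField.discr L₃).natAbs.primeFactors) ?_
  intro ℓ hℓ hℓT
  simp only [Finset.mem_union, not_or] at hℓT
  obtain ⟨⟨⟨hℓS, hd₁⟩, hd₂⟩, hd₃⟩ := hℓT
  replace hd₁ := not_dvd_of_notMem_primeFactors hℓ (NumberField.discr_ne_zero L₁) hd₁
  replace hd₂ := not_dvd_of_notMem_primeFactors hℓ (NumberField.discr_ne_zero L₂) hd₂
  replace hd₃ := not_dvd_of_notMem_primeFactors hℓ (NumberField.discr_ne_zero L₃) hd₃
  obtain ⟨A, hA, σ, hσ, hmem⟩ := hF ℓ hℓ hℓS
  have ha₁ : (0 : ℝ) ≤ (Fermat.Agent.ESlib.idealCount L₁ ℓ : ℝ) / Module.finrank ℚ L₁ := by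
    positivity
  have ha₂ : (0 : ℝ) ≤ (Fermat.Agent.ESlib.idealCount L₂ ℓ : ℝ) / Module.finrank ℚ L₂ := by
    positivity
  have one_le : ∀ (L : IntermediateField ℚ Qb) [FiniteDimensional ℚ L] [IsGalois ℚ L],
      ¬ (ℓ : ℤ) ∣ NumberField.discr L → σ ∈ L.fixingSubgroup →
      (1 : ℝ) ≤ (Fermat.Agent.ESlib.idealCount L ℓ : ℝ) / Module.finrank ℚ L := by
    intro L _ _ hd hσL
    have hpos : (0 : ℝ) < (Module.finrank ℚ L : ℝ) := by
      have : 0 < Module.finrank ℚ L := Module.finrank_pos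
      exact_mod_cast this
    rw [le_div_iff₀ hpos, one_mul]
    exact_mod_cast finrank_le_idealCount_of_frobenius L hℓ hd A hA hσ hσL
  have le_one : (Fermat.Agent.ESlib.idealCount L₃ ℓ : ℝ) / Module.finrank ℚ L₃ ≤ 1 := by
    rw [div_le_iff₀ hn₃, one_mul]
    exact_mod_cast idealCount_le_finrank (K := L₃) hℓ
  by_cases hs₁ : σ ∈ L₁.fixingSubgroup
  · by_cases hs₂ : σ ∈ L₂.fixingSubgroup
    · have e₁ := one_le L₁ hd₁ hs₁
      have e₂ := one_le L₂ hd₂ hs₂
      linarith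
    · have hs₃ : σ ∉ L₃.fixingSubgroup := by
        rw [hL₃, IntermediateField.fixingSubgroup_sup]
        exact fun h => hs₂ h.2
      have e₁ := one_le L₁ hd₁ hs₁
      rw [idealCount_eq_zero_of_frobenius L₃ hℓ hd₃ A hA hσ hs₃]
      simp only [Nat.cast_zero, zero_div, sub_zero]
      linarith
  · have hs₂ : σ ∈ L₂.fixingSubgroup := by
      rcases hmem with h | h
      · exact absurd (hH₁ h) hs₁
      · exact hH₂ h
    have hs₃ : σ ∉ L₃.fixingSubgroup := by
      rw [hL₃, IntermediateField.fixingSubgroup_sup]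
      exact fun h => hs₁ h.1
    have e₂ := one_le L₂ hd₂ hs₂
    rw [idealCount_eq_zero_of_frobenius L₃ hℓ hd₃ A hA hσ hs₃]
    simp only [Nat.cast_zero, zero_div, sub_zero]
    linarith

end

end Fermat.Agent.ESlib.Z
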