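import Fermat.Agent.ES.Z.PrimeSum

/-!
# ES, part Z: numerical consequence of (AN) for two (three) number fields
-/

set_option autoImplicit false

open scoped NumberField Topology
open Filter

namespace Fermat.Agent.ESlib

theorem tendsto_log_one_div_sub :
    Tendsto (fun s : ℝ => Real.log (1 / (s - 1))) (𝓝[>] 1) atTop := by
  have h1 : Tendsto (fun s : ℝ => s - 1) (𝓝[>] 1) (𝓝[>] 0) := by
    refine tendsto_nhdsWithin_iff.mpr ⟨?_, ?_⟩
    · have : Tendsto (fun s : ℝ => s - 1) (𝓝 1) (𝓝 (1 - 1)) :=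
        (continuous_id.sub continuous_const).tendsto 1
      rw [sub_self] at this
      exact this.mono_left nhdsWithin_le_nhds
    · filter_upwards [self_mem_nhdsWithin] with s hs
      have : (1 : ℝ) < s := hs
      simpa using this
  have h2 : Tendsto (fun s : ℝ => 1 / (s - 1)) (𝓝[>] 1) atTop := by
    simp only [one_div]
    exact tendsto_inv_nhdsGT_zero.comp h1
  exact Real.tendsto_log_atTop.comp h2

/-- `∑_p p^{-s} ≥ log (1/(s-1)) - C` -/
theorem primes_rpow_lower :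
    ∃ C : ℝ, ∀ᶠ s in 𝓝[>] (1 : ℝ),
      Real.log (1 / (s - 1)) - C ≤ ∑' p : Nat.Primes, ((p : ℕ) : ℝ) ^ (-s) := by
  obtain ⟨C, hC⟩ := primeSum_asymp ℚ
  refine ⟨C, ?_⟩
  filter_upwards [hC, self_mem_nhdsWithin] with s h hs
  have hs' : (1 : ℝ) < s := hs
  have h1 : primeSum ℚ s ≤ ∑' p : Nat.Primes, ((p : ℕ) : ℝ) ^ (-s) := by
    refine (summable_primeSum ℚ hs').tsum_le_tsum (fun p => ?_)
      (Nat.Primes.summable_rpow.mpr (by linarith))
    have h2 : idealCount ℚ (p : ℕ) ≤ 1 := by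
      have := idealCount_prime_le ℚ p.2
      simpa using this
    have h3 : (idealCount ℚ (p : ℕ) : ℝ) ≤ 1 := by exact_mod_cast h2
    have := mul_le_mul_of_nonneg_right h3 (Real.rpow_nonneg (Nat.cast_nonneg (p : ℕ)) (-s))
    linarith
  rw [abs_le] at h
  linarith [h.1]

/-- General comparison principle: a finite real linear combination of the `a_p(K_i)` which is
`≥ 1` at almost all primes has total weight `≥ 1`.  Here for three fields. -/
theorem no_two_fields (K₁ K₂ K₃ : Type*) [Field K₁] [NumberField K₁] [Field K₂] [NumberField K₂]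
    [Field K₃] [NumberField K₃] (h₁ : 2 ≤ Module.finrank ℚ K₁) (h₂ : 2 ≤ Module.finrank ℚ K₂)
    (T : Finset ℕ)
    (h : ∀ p : ℕ, p.Prime → p ∉ T →
      (1 : ℝ) ≤ (idealCount K₁ p : ℝ) / Module.finrank ℚ K₁ +
        (idealCount K₂ p : ℝ) / Module.finrank ℚ K₂ -
        (idealCount K₃ p : ℝ) / Module.finrank ℚ K₃) : False := by
  classical
  obtain ⟨C₀, hC₀⟩ := primes_rpow_lower
  obtain ⟨C₁, hC₁⟩ := primeSum_asymp K₁
  obtain ⟨C₂, hC₂⟩ := primeSum_asymp K₂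
  obtain ⟨C₃, hC₃⟩ := primeSum_asymp K₃
  set n₁ : ℝ := (Module.finrank ℚ K₁ : ℝ) with hn₁
  set n₂ : ℝ := (Module.finrank ℚ K₂ : ℝ) with hn₂
  set n₃ : ℝ := (Module.finrank ℚ K₃ : ℝ) with hn₃
  have hn₁' : (2 : ℝ) ≤ n₁ := by rw [hn₁]; exact_mod_cast h₁
  have hn₂' : (2 : ℝ) ≤ n₂ := by rw [hn₂]; exact_mod_cast h₂
  have hn₃' : (0 : ℝ) < n₃ := by
    rw [hn₃]
    exact_mod_cast (Module.finrank_pos : 0 < Module.finrank ℚ K₃)
  set B : ℝ := n₃ * (C₀ + C₁ / n₁ + C₂ / n₂ + C₃ / n₃ + 2 * T.card) with hB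
  have hbig := tendsto_log_one_div_sub.eventually (eventually_gt_atTop (max B 0))
  obtain ⟨s, hs0, hs1, hs2, hs3, hsB, hs⟩ :=
    (hC₀.and (hC₁.and (hC₂.and (hC₃.and (hbig.and self_mem_nhdsWithin))))).exists
  have hs' : (1 : ℝ) < s := hs
  set L : ℝ := Real.log (1 / (s - 1)) with hL
  -- the termwise inequality
  set T' : Finset Nat.Primes := T.subtype Nat.Prime with hT'
  have hterm : ∀ p : Nat.Primes, ((p : ℕ) : ℝ) ^ (-s) ≤
      ((idealCount K₁ (p : ℕ) : ℝ) * ((p : ℕ) : ℝ) ^ (-s)) * n₁⁻¹ +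
      ((idealCount K₂ (p : ℕ) : ℝ) * ((p : ℕ) : ℝ) ^ (-s)) * n₂⁻¹ -
      ((idealCount K₃ (p : ℕ) : ℝ) * ((p : ℕ) : ℝ) ^ (-s)) * n₃⁻¹ +
      (if p ∈ T' then 2 else 0) := by
    intro p
    have hx0 : 0 ≤ ((p : ℕ) : ℝ) ^ (-s) := Real.rpow_nonneg (Nat.cast_nonneg _) _
    have hx1 : ((p : ℕ) : ℝ) ^ (-s) ≤ 1 := by
      refine Real.rpow_le_one_of_one_le_of_nonpos ?_ (by linarith)
      exact_mod_cast p.2.one_le
    by_cases hp : p ∈ T'
    · rw [if_pos hp]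
      have a3 : (idealCount K₃ (p : ℕ) : ℝ) * n₃⁻¹ ≤ 1 := by
        rw [← div_eq_mul_inv, div_le_one hn₃', hn₃]
        exact_mod_cast idealCount_prime_le K₃ p.2
      have a1 : 0 ≤ (idealCount K₁ (p : ℕ) : ℝ) * n₁⁻¹ :=
        mul_nonneg (Nat.cast_nonneg _) (inv_nonneg.mpr (by linarith))
      have a2 : 0 ≤ (idealCount K₂ (p : ℕ) : ℝ) * n₂⁻¹ :=
        mul_nonneg (Nat.cast_nonneg _) (inv_nonneg.mpr (by linarith))
      nlinarith [mul_nonneg a1 hx0, mul_nonneg a2 hx0, mul_le_mul_of_nonneg_right a3 hx0]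
    · rw [if_neg hp, add_zero]
      have hpT : (p : ℕ) ∉ T := by
        intro hcon
        exact hp (Finset.mem_subtype.mpr hcon)
      have := h p p.2 hpT
      simp only [div_eq_mul_inv] at this
      nlinarith [mul_le_mul_of_nonneg_right this hx0]
  have S0 : Summable (fun p : Nat.Primes => ((p : ℕ) : ℝ) ^ (-s)) :=
    Nat.Primes.summable_rpow.mpr (by linarith)
  have S1 := (summable_primeSum K₁ hs').mul_right n₁⁻¹
  have S2 := (summable_primeSum K₂ hs').mul_right n₂⁻¹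
  have S3 := (summable_primeSum K₃ hs').mul_right n₃⁻¹
  have S4 : Summable (fun p : Nat.Primes => if p ∈ T' then (2 : ℝ) else 0) :=
    summable_of_ne_finset_zero (s := T') (fun p hp => if_neg hp)
  have hsum := S0.tsum_le_tsum hterm (((S1.add S2).sub S3).add S4)
  rw [((S1.add S2).sub S3).tsum_add S4, (S1.add S2).tsum_sub S3, S1.tsum_add S2,
    tsum_mul_right, tsum_mul_right, tsum_mul_right] at hsum
  have h4 : ∑' p : Nat.Primes, (if p ∈ T' then (2 : ℝ) else 0) ≤ 2 * T.card := by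
    rw [tsum_eq_sum (s := T') (fun p hp => if_neg hp)]
    rw [Finset.sum_congr rfl (fun p hp => if_pos hp), Finset.sum_const, nsmul_eq_mul]
    have : T'.card ≤ T.card := by
      refine Finset.card_le_card_of_injOn (fun p => (p : ℕ))
        (fun p hp => Finset.mem_subtype.mp hp) (fun p _ q _ hpq => Subtype.ext hpq)
    have : (T'.card : ℝ) ≤ (T.card : ℝ) := by exact_mod_cast this
    linarith
  have e1 : ∑' p : Nat.Primes, (idealCount K₁ (p : ℕ) : ℝ) * ((p : ℕ) : ℝ) ^ (-s) =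
      primeSum K₁ s := rfl
  have e2 : ∑' p : Nat.Primes, (idealCount K₂ (p : ℕ) : ℝ) * ((p : ℕ) : ℝ) ^ (-s) =
      primeSum K₂ s := rfl
  have e3 : ∑' p : Nat.Primes, (idealCount K₃ (p : ℕ) : ℝ) * ((p : ℕ) : ℝ) ^ (-s) =
      primeSum K₃ s := rfl
  rw [e1, e2, e3] at hsum
  rw [abs_le] at hs1 hs2 hs3
  have i1 : 0 < n₁⁻¹ := inv_pos.mpr (by linarith)
  have i2 : 0 < n₂⁻¹ := inv_pos.mpr (by linarith)
  have i3 : 0 < n₃⁻¹ := inv_pos.mpr hn₃'
  have b1 : primeSum K₁ s * n₁⁻¹ ≤ (L + C₁) * n₁⁻¹ :=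
    mul_le_mul_of_nonneg_right (by linarith [hs1.2]) i1.le
  have b2 : primeSum K₂ s * n₂⁻¹ ≤ (L + C₂) * n₂⁻¹ :=
    mul_le_mul_of_nonneg_right (by linarith [hs2.2]) i2.le
  have b3 : (L - C₃) * n₃⁻¹ ≤ primeSum K₃ s * n₃⁻¹ :=
    mul_le_mul_of_nonneg_right (by linarith [hs3.1]) i3.le
  have j1 : n₁⁻¹ ≤ 1 / 2 := by
    rw [one_div]
    exact inv_anti₀ (by norm_num) hn₁'
  have j2 : n₂⁻¹ ≤ 1 / 2 := by
    rw [one_div]
    exact inv_anti₀ (by norm_num) hn₂'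
  have hBL : B < L := lt_of_le_of_lt (le_max_left _ _) hsB
  have hL0 : 0 < L := lt_of_le_of_lt (le_max_right _ _) hsB
  have k1 : L * n₁⁻¹ ≤ L * (1 / 2) := mul_le_mul_of_nonneg_left j1 hL0.le
  have k2 : L * n₂⁻¹ ≤ L * (1 / 2) := mul_le_mul_of_nonneg_left j2 hL0.le
  have hL3 : L * n₃⁻¹ ≤ C₀ + C₁ * n₁⁻¹ + C₂ * n₂⁻¹ + C₃ * n₃⁻¹ + 2 * T.card := by
    nlinarith
  have hfin : L ≤ B := by
    rw [hB]
    simp only [div_eq_mul_inv]
    have := mul_le_mul_of_nonneg_left hL3 hn₃'.le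
    rwa [mul_comm L, ← mul_assoc, mul_inv_cancel₀ hn₃'.ne', one_mul] at this
  linarith

end Fermat.Agent.ESlib
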