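import Mathlib
import Fermat.Agent.ES.Z.Two
import Fermat.Agent.ES.Z.TwoFields

/-!
# ES part Z: final statement

Two closed normal subgroups `H₁`, `H₂` of `G_ℚ` such that for almost every prime `ℓ` some Frobenius
element at `ℓ` lies in `H₁ ∪ H₂`: then `H₁ = ⊤` or `H₂ = ⊤`.
(analysis: `no_two_fields`; algebra: `Z.eq_top_or_eq_top_of_noTwoFields`.)
-/

set_option autoImplicit false

namespace Fermat.Agent.ESlib

theorem Z.noTwoFields : Z.NoTwoFields :=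
  fun K₁ K₂ K₃ _ _ _ _ _ _ h₁ h₂ T h => no_two_fields K₁ K₂ K₃ h₁ h₂ T h

/-- **ES part Z.** -/
theorem eq_top_or_eq_top_of_frobenius_mem
    (H1 H2 : Subgroup (AlgebraicClosure ℚ ≃ₐ[ℚ] AlgebraicClosure ℚ)) [H1.Normal] [H2.Normal]
    (h1 : IsClosed (H1 : Set (AlgebraicClosure ℚ ≃ₐ[ℚ] AlgebraicClosure ℚ)))
    (h2 : IsClosed (H2 : Set (AlgebraicClosure ℚ ≃ₐ[ℚ] AlgebraicClosure ℚ))) (S : Finset ℕ)
    (hF : ∀ l : ℕ, l.Prime → l ∉ S → ∃ A : ValuationSubring (AlgebraicClosure ℚ),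
      A.LiesOverPrime l ∧ ∃ σ : AlgebraicClosure ℚ ≃ₐ[ℚ] AlgebraicClosure ℚ,
        A.IsFrobeniusAt σ l ∧ (σ ∈ H1 ∨ σ ∈ H2)) :
    H1 = ⊤ ∨ H2 = ⊤ :=
  Z.eq_top_or_eq_top_of_noTwoFields Z.noTwoFields H1 H2 h1 h2 S hF

end Fermat.Agent.ESlib
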