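import Mathlib
import Fermat.Agent.ES.Z.Count

/-!
# ES part Z, step 2: bounds for the Dedekind zeta function on the real axis
-/

set_option autoImplicit false

open scoped NumberField
open Filter Topology Ideal NumberField NumberField.InfinitePlace NumberField.Units nonZeroDivisors

namespace Fermat.Agent.ESlib.Z

noncomputable section

variable (K : Type*) [Field K] [NumberField K]

theorem tendsto_idealCount :
    Tendsto (fun n : ℕ ↦ (∑ k ∈ Finset.Icc 1 n, (idealCount K k : ℝ)) / (n : ℝ)) atTop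
      (𝓝 (dedekindZeta_residue K)) := by
  refine ((Ideal.tendsto_norm_le_div_atTop₀ K).comp tendsto_natCast_atTop_atTop).congr fun n ↦ ?_
  simp only [Function.comp_apply, Nat.cast_le, ← Nat.cast_sum, idealCount]
  congr
  rw [← add_left_inj 1, ← card_norm_le_eq_card_norm_le_add_one,
    show Finset.Icc 1 n = Finset.Ioc 0 n from Finset.Icc_succ_left_eq_Ioc _ _,
    show 1 = Nat.card {I : Ideal (𝓞 K) // absNorm I = 0} by simp [Ideal.absNorm_eq_zero_iff],
    Finset.sum_Ioc_add_eq_sum_Icc (n.zero_le),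
    ← Finset.card_preimage_eq_sum_card_image_eq (fun k _ ↦ finite_setOfPred_absNorm_eq k)]
  simp [Set.coe_eq_subtype]

theorem lseriesSummable_idealCount {s : ℝ} (hs : 1 < s) :
    LSeriesSummable (fun n ↦ ((idealCount K n : ℝ) : ℂ)) s := by
  refine LSeriesSummable_of_sum_norm_bigO_and_nonneg ?_ (fun _ => Nat.cast_nonneg _) zero_le_one
    (by simpa using hs)
  exact Asymptotics.isBigO_atTop_natCast_rpow_of_tendsto_div_rpow
    (by simpa using tendsto_idealCount K)

/-- the real terms of the Dedekind zeta function -/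
def zterm (s : ℝ) (m : ℕ) : ℝ := (idealCount K m : ℝ) * (m : ℝ) ^ (-s)

/-- the Dedekind zeta function on the real axis -/
def zetaR (s : ℝ) : ℝ := ∑' m : ℕ, zterm K s m

theorem zterm_nonneg (s : ℝ) (m : ℕ) : 0 ≤ zterm K s m :=
  mul_nonneg (Nat.cast_nonneg _) (Real.rpow_nonneg (Nat.cast_nonneg _) _)

theorem term_eq_zterm {s : ℝ} (hs : 1 < s) (m : ℕ) :
    LSeries.term (fun n ↦ ((idealCount K n : ℝ) : ℂ)) s m = ((zterm K s m : ℝ) : ℂ) := by
  rw [LSeries.term_def, zterm]
  split_ifs with h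
  · subst h
    rw [Nat.cast_zero, Real.zero_rpow (by linarith)]
    simp
  · rw [Complex.ofReal_mul, Complex.ofReal_cpow (Nat.cast_nonneg _), Complex.ofReal_neg,
      Complex.cpow_neg, div_eq_mul_inv]
    simp

theorem summable_zterm {s : ℝ} (hs : 1 < s) : Summable (zterm K s) := by
  have h := lseriesSummable_idealCount K hs
  unfold LSeriesSummable at h
  rw [funext (term_eq_zterm K hs)] at h
  exact Complex.summable_ofReal.mp h

theorem dedekindZeta_eq_zetaR {s : ℝ} (hs : 1 < s) :
    dedekindZeta K s = ((zetaR K s : ℝ) : ℂ) := by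
  rw [zetaR, Complex.ofReal_tsum, dedekindZeta, LSeries]
  refine tsum_congr fun m => ?_
  rw [← term_eq_zterm K hs]
  simp [idealCount]

theorem tendsto_zetaR :
    Tendsto (fun s : ℝ ↦ (s - 1) * zetaR K s) (𝓝[>] 1) (𝓝 (dedekindZeta_residue K)) := by
  have h := tendsto_sub_one_mul_dedekindZeta_nhdsGT K
  rw [← Filter.tendsto_ofReal_iff]
  refine h.congr' ?_
  filter_upwards [self_mem_nhdsWithin] with s hs
  rw [dedekindZeta_eq_zetaR K hs]
  push_cast
  ring

/-- upper bound near `1` -/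
theorem eventually_zetaR_le :
    ∀ᶠ s : ℝ in 𝓝[>] 1, zetaR K s ≤ (dedekindZeta_residue K + 1) / (s - 1) := by
  have h := (tendsto_zetaR K).eventually_le_const (lt_add_one (dedekindZeta_residue K))
  filter_upwards [h, self_mem_nhdsWithin] with s hs h1
  have h1' : 0 < s - 1 := sub_pos.mpr h1
  rw [le_div_iff₀ h1']
  linarith

end

end Fermat.Agent.ESlib.Z

namespace Fermat.Agent.ESlib.Z

noncomputable section

variable (K : Type*) [Field K] [NumberField K]

theorem prod_injOn_primes (T : Finset ℕ) (hT : ∀ p ∈ T, p.Prime) :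
    Set.InjOn (fun U : Finset ℕ => ∏ p ∈ U, p) (T.powerset : Set (Finset ℕ)) := by
  have key : ∀ U V : Finset ℕ, U ⊆ T → V ⊆ T → ∏ p ∈ U, p = ∏ p ∈ V, p → U ⊆ V := by
    intro U V hU hV h p hp
    have h1 : p ∣ ∏ q ∈ V, q := h ▸ Finset.dvd_prod_of_mem _ hp
    obtain ⟨q, hq, hpq⟩ := (Prime.dvd_finsetProd_iff (hT p (hU hp)).prime _).mp h1
    rwa [(Nat.prime_dvd_prime_iff_eq (hT p (hU hp)) (hT q (hV hq))).mp hpq]
  intro U hU V hV h
  rw [Finset.mem_coe, Finset.mem_powerset] at hU hV
  exact Finset.Subset.antisymm (key U V hU hV h) (key V U hV hU h.symm)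

/-- lower bound by the squarefree products of split primes -/
theorem prod_le_zetaR {s : ℝ} (hs : 1 < s) {n : ℕ} (T : Finset ℕ)
    (hT : ∀ p ∈ T, p.Prime ∧ HasSplit K n p) :
    ∏ p ∈ T, (1 + (n : ℝ) * (p : ℝ) ^ (-s)) ≤ zetaR K s := by
  classical
  rw [Finset.prod_one_add]
  have hinj := prod_injOn_primes T (fun p hp => (hT p hp).1)
  calc ∑ U ∈ T.powerset, ∏ p ∈ U, ((n : ℝ) * (p : ℝ) ^ (-s))
      ≤ ∑ U ∈ T.powerset, zterm K s (∏ p ∈ U, p) := by
        refine Finset.sum_le_sum fun U hU => ?_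
        rw [Finset.mem_powerset] at hU
        rw [Finset.prod_mul_distrib, Finset.prod_const, zterm, Nat.cast_prod,
          Real.finsetProd_rpow _ _ (fun _ _ => Nat.cast_nonneg _)]
        refine mul_le_mul_of_nonneg_right ?_ (Real.rpow_nonneg
          (Finset.prod_nonneg fun _ _ => Nat.cast_nonneg _) _)
        exact_mod_cast pow_card_le_idealCount U (fun p hp => hT p (hU hp))
    _ = ∑ m ∈ T.powerset.image (fun U : Finset ℕ => ∏ p ∈ U, p), zterm K s m :=
        (Finset.sum_image hinj).symm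
    _ ≤ zetaR K s :=
        (summable_zterm K hs).sum_le_tsum _ (fun m _ => zterm_nonneg K s m)

end

end Fermat.Agent.ESlib.Z
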