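import Mathlib
import Fermat.Agent.ES.Z.Dedekind

/-!
# ES part Z, step 3: two number fields cannot share all the primes
-/

set_option autoImplicit false

open scoped NumberField
open Filter Topology NumberField

namespace Fermat.Agent.ESlib.Z

noncomputable section

/-- `∑ 1/m²` -/
def zetaTwo : ℝ := ∑' m : ℕ, ((m : ℝ) ^ 2)⁻¹

theorem summable_zetaTwo : Summable (fun m : ℕ => ((m : ℝ) ^ 2)⁻¹) :=
  Real.summable_nat_pow_inv.mpr one_lt_two

theorem zetaTwo_nonneg : 0 ≤ zetaTwo := tsum_nonneg fun _ => by positivity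

theorem rpow_neg_sq_le {s : ℝ} (hs : 1 < s) {p : ℕ} (hp : 1 ≤ p) :
    ((p : ℝ) ^ (-s)) ^ 2 ≤ ((p : ℝ) ^ 2)⁻¹ := by
  have hp' : (1 : ℝ) ≤ p := by exact_mod_cast hp
  have h1 : (p : ℝ) ^ (-s) ≤ (p : ℝ) ^ (-1 : ℝ) :=
    Real.rpow_le_rpow_of_exponent_le hp' (by linarith)
  rw [Real.rpow_neg_one] at h1
  have h0 : 0 ≤ (p : ℝ) ^ (-s) := Real.rpow_nonneg (by linarith) _
  calc ((p : ℝ) ^ (-s)) ^ 2 ≤ ((p : ℝ)⁻¹) ^ 2 := pow_le_pow_left₀ h0 h1 2
    _ = ((p : ℝ) ^ 2)⁻¹ := by rw [inv_pow]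

theorem sum_rpow_neg_sq_le {s : ℝ} (hs : 1 < s) (F : Finset ℕ) (hF : ∀ p ∈ F, 1 ≤ p) :
    ∑ p ∈ F, ((p : ℝ) ^ (-s)) ^ 2 ≤ zetaTwo :=
  (Finset.sum_le_sum fun p hp => rpow_neg_sq_le hs (hF p hp)).trans
    (summable_zetaTwo.sum_le_tsum F (fun _ _ => by positivity))

theorem sub_sq_le_log {y : ℝ} (hy : 0 ≤ y) : y - y ^ 2 / 2 ≤ Real.log (1 + y) := by
  refine le_trans ?_ (Real.le_log_one_add_of_nonneg hy)
  rw [le_div_iff₀ (by linarith)]
  nlinarith [pow_nonneg hy 3]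

/-- the prime zeta function -/
def primeSum (s : ℝ) : ℝ := ∑' p : Nat.Primes, ((p : ℕ) : ℝ) ^ (-s)

theorem summable_primeSum {s : ℝ} (hs : 1 < s) :
    Summable (fun p : Nat.Primes => ((p : ℕ) : ℝ) ^ (-s)) :=
  Nat.Primes.summable_rpow.mpr (by linarith)

theorem summable_primes_sq {s : ℝ} (hs : 1 < s) :
    Summable (fun p : Nat.Primes => (((p : ℕ) : ℝ) ^ (-s)) ^ 2) :=
  Summable.of_nonneg_of_le (fun _ => by positivity)
    (fun p => rpow_neg_sq_le hs p.2.one_le)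
    (summable_zetaTwo.comp_injective Nat.Primes.coe_nat_injective)

theorem tsum_primes_sq_le {s : ℝ} (hs : 1 < s) :
    ∑' p : Nat.Primes, (((p : ℕ) : ℝ) ^ (-s)) ^ 2 ≤ zetaTwo := by
  refine ((summable_primes_sq hs).tsum_le_tsum (fun p => rpow_neg_sq_le hs p.2.one_le)
    (summable_zetaTwo.comp_injective Nat.Primes.coe_nat_injective)).trans ?_
  exact tsum_comp_le_tsum_of_inj summable_zetaTwo (fun _ => by positivity)
    Nat.Primes.coe_nat_injective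

theorem norm_log_term_le {s : ℝ} (hs : 1 < s) (p : Nat.Primes) :
    ‖-Complex.log (1 - ((p : ℕ) : ℂ) ^ (-(s : ℂ)))‖ ≤
      ((p : ℕ) : ℝ) ^ (-s) + (((p : ℕ) : ℝ) ^ (-s)) ^ 2 := by
  set z : ℂ := ((p : ℕ) : ℂ) ^ (-(s : ℂ)) with hz
  have hnorm : ‖z‖ = ((p : ℕ) : ℝ) ^ (-s) := by
    rw [hz, Complex.norm_natCast_cpow_of_pos p.2.pos]
    simp
  have hp2 : (2 : ℝ) ≤ ((p : ℕ) : ℝ) := by exact_mod_cast p.2.two_le
  have hhalf : ‖z‖ ≤ 1 / 2 := by
    rw [hnorm]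
    calc ((p : ℕ) : ℝ) ^ (-s) ≤ ((p : ℕ) : ℝ) ^ (-1 : ℝ) :=
          Real.rpow_le_rpow_of_exponent_le (by linarith) (by linarith)
      _ = (((p : ℕ) : ℝ))⁻¹ := Real.rpow_neg_one _
      _ ≤ 1 / 2 := by
          rw [one_div]
          exact inv_anti₀ (by norm_num) hp2
  have h1 := Complex.norm_log_one_add_sub_self_le (z := -z) (by rw [norm_neg]; linarith)
  rw [norm_neg, sub_neg_eq_add, ← sub_eq_add_neg] at h1
  rw [norm_neg, ← hnorm]
  have h2 : ‖Complex.log (1 - z)‖ ≤ ‖Complex.log (1 - z) + z‖ + ‖z‖ := by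
    have := norm_sub_le (Complex.log (1 - z) + z) z
    simpa using this
  have h3 : ‖z‖ ^ 2 * (1 - ‖z‖)⁻¹ / 2 ≤ ‖z‖ ^ 2 := by
    have : (1 - ‖z‖)⁻¹ ≤ 2 := by
      rw [inv_le_comm₀ (by linarith) (by norm_num)]
      linarith
    nlinarith [sq_nonneg ‖z‖]
  linarith

theorem norm_zeta_le {s : ℝ} (hs : 1 < s) :
    ‖riemannZeta s‖ ≤ Real.exp (primeSum s + zetaTwo) := by
  have hsum : Summable (fun p : Nat.Primes =>
      ((p : ℕ) : ℝ) ^ (-s) + (((p : ℕ) : ℝ) ^ (-s)) ^ 2) :=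
    (summable_primeSum hs).add (summable_primes_sq hs)
  have hsn : Summable (fun p : Nat.Primes =>
      ‖-Complex.log (1 - ((p : ℕ) : ℂ) ^ (-(s : ℂ)))‖) :=
    Summable.of_nonneg_of_le (fun _ => norm_nonneg _) (norm_log_term_le hs) hsum
  rw [← riemannZeta_eulerProduct_exp_log (s := (s : ℂ)) (by simpa using hs), Complex.norm_exp]
  refine Real.exp_le_exp.mpr ?_
  calc (∑' p : Nat.Primes, -Complex.log (1 - ((p : ℕ) : ℂ) ^ (-(s : ℂ)))).re
      ≤ ‖∑' p : Nat.Primes, -Complex.log (1 - ((p : ℕ) : ℂ) ^ (-(s : ℂ)))‖ := Complex.re_le_norm _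
    _ ≤ ∑' p : Nat.Primes, ‖-Complex.log (1 - ((p : ℕ) : ℂ) ^ (-(s : ℂ)))‖ :=
        norm_tsum_le_tsum_norm hsn
    _ ≤ ∑' p : Nat.Primes, (((p : ℕ) : ℝ) ^ (-s) + (((p : ℕ) : ℝ) ^ (-s)) ^ 2) :=
        hsn.tsum_le_tsum (norm_log_term_le hs) hsum
    _ = primeSum s + ∑' p : Nat.Primes, (((p : ℕ) : ℝ) ^ (-s)) ^ 2 :=
        (summable_primeSum hs).tsum_add (summable_primes_sq hs)
    _ ≤ primeSum s + zetaTwo := by
        have := tsum_primes_sq_le hs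
        linarith

theorem eventually_le_norm_zeta :
    ∀ᶠ s : ℝ in 𝓝[>] 1, 1 / (2 * (s - 1)) ≤ ‖riemannZeta s‖ := by
  have h0 : Tendsto (fun s : ℝ ↦ (s : ℂ)) (𝓝[>] 1) (𝓝[≠] 1) := by
    refine tendsto_nhdsWithin_iff.mpr ⟨?_, ?_⟩
    · exact (Complex.continuous_ofReal.tendsto' 1 1 (by simp)).mono_left nhdsWithin_le_nhds
    · filter_upwards [self_mem_nhdsWithin] with s hs
      have : (1 : ℝ) < s := hs
      simp only [Set.mem_compl_iff, Set.mem_singleton_iff]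
      intro h
      have : s = 1 := by exact_mod_cast h
      linarith
  have h1 := (riemannZeta_residue_one.comp h0).norm
  rw [norm_one] at h1
  have h2 := h1.eventually_const_le (show (1 / 2 : ℝ) < 1 by norm_num)
  filter_upwards [h2, self_mem_nhdsWithin] with s hs h1s
  have h1s' : 0 < s - 1 := sub_pos.mpr h1s
  simp only [Function.comp_apply, norm_mul] at hs
  have h3 : ‖(s : ℂ) - 1‖ = s - 1 := by
    rw [← Complex.ofReal_one, ← Complex.ofReal_sub, Complex.norm_real, Real.norm_of_nonneg h1s'.le]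
  rw [h3] at hs
  rw [div_le_iff₀ (by positivity)]
  nlinarith

/-- **Lemma B**: lower bound for the sum over all primes. -/
theorem eventually_le_primeSum :
    ∃ C : ℝ, ∀ᶠ s : ℝ in 𝓝[>] 1, Real.log (1 / (s - 1)) - C ≤ primeSum s := by
  refine ⟨Real.log 2 + zetaTwo, ?_⟩
  filter_upwards [eventually_le_norm_zeta, self_mem_nhdsWithin] with s hs h1s
  have h1s' : 0 < s - 1 := sub_pos.mpr h1s
  have h := hs.trans (norm_zeta_le h1s)
  have h2 := Real.log_le_log (by positivity) h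
  rw [Real.log_exp] at h2
  have h3 : Real.log (1 / (2 * (s - 1))) = Real.log (1 / (s - 1)) - Real.log 2 := by
    rw [show 1 / (2 * (s - 1)) = (1 / (s - 1)) / 2 by field_simp,
      Real.log_div (by positivity) (by norm_num)]
  linarith

variable (K : Type*) [Field K] [NumberField K]

/-- **Lemma A**: upper bound for the split primes of `K`. -/
theorem eventually_split_sum_le (n : ℕ) :
    ∃ C : ℝ, ∀ᶠ s : ℝ in 𝓝[>] 1, ∀ F : Finset ℕ, (∀ p ∈ F, p.Prime ∧ HasSplit K n p) →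
      (n : ℝ) * ∑ p ∈ F, (p : ℝ) ^ (-s) ≤ Real.log (1 / (s - 1)) + C := by
  refine ⟨Real.log (dedekindZeta_residue K + 1) + (n : ℝ) ^ 2 / 2 * zetaTwo, ?_⟩
  filter_upwards [eventually_zetaR_le K, self_mem_nhdsWithin] with s hz hs F hF
  have hs' : (1 : ℝ) < s := hs
  have hs1 : 0 < s - 1 := sub_pos.mpr hs'
  have hres : 0 < dedekindZeta_residue K + 1 := by
    have := dedekindZeta_residue_pos K
    linarith
  have hpos : ∀ p ∈ F, 0 < 1 + (n : ℝ) * (p : ℝ) ^ (-s) := fun p _ => by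
    have : 0 ≤ (n : ℝ) * (p : ℝ) ^ (-s) :=
      mul_nonneg (Nat.cast_nonneg _) (Real.rpow_nonneg (Nat.cast_nonneg _) _)
    linarith
  have h1 : ∑ p ∈ F, Real.log (1 + (n : ℝ) * (p : ℝ) ^ (-s)) ≤
      Real.log (dedekindZeta_residue K + 1) + Real.log (1 / (s - 1)) := by
    rw [← Real.log_prod (fun p hp => (hpos p hp).ne'), ← Real.log_mul hres.ne' (by positivity)]
    refine Real.log_le_log (Finset.prod_pos hpos) ?_
    refine (prod_le_zetaR K hs' F hF).trans (hz.trans (le_of_eq ?_))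
    ring
  have h2 : ∑ p ∈ F, ((n : ℝ) * (p : ℝ) ^ (-s) - ((n : ℝ) * (p : ℝ) ^ (-s)) ^ 2 / 2) ≤
      ∑ p ∈ F, Real.log (1 + (n : ℝ) * (p : ℝ) ^ (-s)) :=
    Finset.sum_le_sum fun p _ => sub_sq_le_log
      (mul_nonneg (Nat.cast_nonneg _) (Real.rpow_nonneg (Nat.cast_nonneg _) _))
  have h3 : ∑ p ∈ F, ((n : ℝ) * (p : ℝ) ^ (-s) - ((n : ℝ) * (p : ℝ) ^ (-s)) ^ 2 / 2) =
      (n : ℝ) * ∑ p ∈ F, (p : ℝ) ^ (-s) - (n : ℝ) ^ 2 / 2 * ∑ p ∈ F, ((p : ℝ) ^ (-s)) ^ 2 := by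
    rw [Finset.sum_sub_distrib, Finset.mul_sum, Finset.mul_sum]
    congr 1
    refine Finset.sum_congr rfl fun p _ => ?_
    ring
  have h4 := sum_rpow_neg_sq_le hs' F (fun p hp => (hF p hp).1.one_le)
  have h5 : (n : ℝ) ^ 2 / 2 * ∑ p ∈ F, ((p : ℝ) ^ (-s)) ^ 2 ≤ (n : ℝ) ^ 2 / 2 * zetaTwo :=
    mul_le_mul_of_nonneg_left h4 (by positivity)
  linarith

end

end Fermat.Agent.ESlib.Z

namespace Fermat.Agent.ESlib.Z

noncomputable section

theorem tendsto_log_inv_sub_one :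
    Tendsto (fun s : ℝ => Real.log (1 / (s - 1))) (𝓝[>] 1) atTop := by
  have h1 : Tendsto (fun s : ℝ => s - 1) (𝓝[>] 1) (𝓝[>] 0) := by
    refine tendsto_nhdsWithin_iff.mpr ⟨?_, ?_⟩
    · have : Tendsto (fun s : ℝ => s - 1) (𝓝 1) (𝓝 (1 - 1)) :=
        (continuous_id.sub continuous_const).tendsto 1
      rw [sub_self] at this
      exact this.mono_left nhdsWithin_le_nhds
    · filter_upwards [self_mem_nhdsWithin] with s hs
      exact sub_pos.mpr (show (1 : ℝ) < s from hs)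
  have h2 := (Real.tendsto_log_atTop.comp tendsto_inv_nhdsGT_zero).comp h1
  refine h2.congr fun s => ?_
  simp [one_div]

/-- **Part Z, analytic form.**  Two number fields `K₁`, `K₂` with `1/n₁ + 1/n₂ < 1` cannot have the
property that almost every prime has `n₁` primes of degree one in `K₁` or `n₂` primes of degree one
in `K₂`. -/
theorem not_forall_hasSplit_or (K₁ : Type*) [Field K₁] [NumberField K₁]
    (K₂ : Type*) [Field K₂] [NumberField K₂] {n₁ n₂ : ℕ} (h₁ : 0 < n₁) (h₂ : 0 < n₂)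
    (hn : (1 : ℝ) / n₁ + 1 / n₂ < 1) (T : Finset ℕ)
    (h : ∀ ℓ : ℕ, ℓ.Prime → ℓ ∉ T → HasSplit K₁ n₁ ℓ ∨ HasSplit K₂ n₂ ℓ) : False := by
  classical
  obtain ⟨C₁, hC₁⟩ := eventually_split_sum_le K₁ n₁
  obtain ⟨C₂, hC₂⟩ := eventually_split_sum_le K₂ n₂
  obtain ⟨C₃, hC₃⟩ := eventually_le_primeSum
  have hn₁ : (0 : ℝ) < n₁ := by exact_mod_cast h₁
  have hn₂ : (0 : ℝ) < n₂ := by exact_mod_cast h₂
  set c : ℝ := 1 - (1 / n₁ + 1 / n₂) with hc
  have hcpos : 0 < c := by rw [hc]; linarith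
  set D : ℝ := (T.card + C₁ / n₁ + C₂ / n₂ + C₃) / c with hD
  have hlarge := tendsto_log_inv_sub_one.eventually_gt_atTop D
  obtain ⟨s, ⟨⟨⟨hs₁, hs₂⟩, hs₃⟩, hs₄⟩, hs⟩ :=
    ((((hC₁.and hC₂).and hC₃).and hlarge).and self_mem_nhdsWithin).exists
  have hs' : (1 : ℝ) < s := hs
  set L : ℝ := Real.log (1 / (s - 1)) with hL
  have hbound : primeSum s ≤ T.card + (L + C₁) / n₁ + (L + C₂) / n₂ := by
    refine Real.tsum_le_of_sum_le (fun p => Real.rpow_nonneg (Nat.cast_nonneg _) _) fun F => ?_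
    set F0 : Finset ℕ := F.map ⟨fun p : Nat.Primes => (p : ℕ), Nat.Primes.coe_nat_injective⟩
      with hF0
    have hF0p : ∀ q ∈ F0, q.Prime := by
      intro q hq
      rw [hF0, Finset.mem_map] at hq
      obtain ⟨p, _, rfl⟩ := hq
      exact p.2
    have hsum : ∑ p ∈ F, ((p : ℕ) : ℝ) ^ (-s) = ∑ q ∈ F0, (q : ℝ) ^ (-s) := by
      rw [hF0, Finset.sum_map]
      rfl
    rw [hsum]
    have hnn : ∀ q : ℕ, 0 ≤ (q : ℝ) ^ (-s) := fun q => Real.rpow_nonneg (Nat.cast_nonneg _) _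
    have hpt : ∀ q ∈ F0, (q : ℝ) ^ (-s) ≤ (if q ∈ T then (1 : ℝ) else 0) +
        (if HasSplit K₁ n₁ q then (q : ℝ) ^ (-s) else 0) +
        (if HasSplit K₂ n₂ q then (q : ℝ) ^ (-s) else 0) := by
      intro q hq
      have hq1 : (q : ℝ) ^ (-s) ≤ 1 :=
        Real.rpow_le_one_of_one_le_of_nonpos (by exact_mod_cast (hF0p q hq).one_le) (by linarith)
      have := hnn q
      by_cases hqT : q ∈ T
      · rw [if_pos hqT]
        split_ifs <;> linarith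
      · rcases h q (hF0p q hq) hqT with h' | h'
        · rw [if_pos h']
          split_ifs <;> linarith
        · rw [if_pos h']
          split_ifs <;> linarith
    refine (Finset.sum_le_sum hpt).trans ?_
    rw [Finset.sum_add_distrib, Finset.sum_add_distrib, ← Finset.sum_filter, ← Finset.sum_filter,
      ← Finset.sum_filter]
    have e0 : ∑ q ∈ F0 with q ∈ T, (1 : ℝ) ≤ T.card := by
      rw [Finset.sum_const, nsmul_eq_mul, mul_one]
      exact_mod_cast Finset.card_le_card (fun q hq => (Finset.mem_filter.mp hq).2)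
    have e1 : ∑ q ∈ F0 with HasSplit K₁ n₁ q, (q : ℝ) ^ (-s) ≤ (L + C₁) / n₁ := by
      rw [le_div_iff₀ hn₁, mul_comm]
      exact hs₁ _ fun q hq => ⟨hF0p q (Finset.mem_filter.mp hq).1, (Finset.mem_filter.mp hq).2⟩
    have e2 : ∑ q ∈ F0 with HasSplit K₂ n₂ q, (q : ℝ) ^ (-s) ≤ (L + C₂) / n₂ := by
      rw [le_div_iff₀ hn₂, mul_comm]
      exact hs₂ _ fun q hq => ⟨hF0p q (Finset.mem_filter.mp hq).1, (Finset.mem_filter.mp hq).2⟩
    linarith
  have h5 : c * L ≤ T.card + C₁ / n₁ + C₂ / n₂ + C₃ := by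
    have : L - C₃ ≤ T.card + (L + C₁) / n₁ + (L + C₂) / n₂ := hs₃.trans hbound
    rw [hc]
    have e : (L + C₁) / n₁ + (L + C₂) / n₂ = (1 / n₁ + 1 / n₂) * L + C₁ / n₁ + C₂ / n₂ := by
      field_simp
      ring
    linarith
  have h6 : D < L := hs₄
  rw [hD, div_lt_iff₀ hcpos] at h6
  linarith

end

end Fermat.Agent.ESlib.Z
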