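import Mathlib
import Fermat.Prelude.Def_EllipticCurve_FrobeniusTrace

/-!
# ES part Z: elementwise characterisation of `IsFrobeniusAt`, conjugation
-/

set_option autoImplicit false
open scoped Pointwise

namespace Fermat.Agent.ESlib

variable {K L : Type*} [Field K] [Field L] [Algebra K L]

theorem isFrobeniusAt_iff (A : ValuationSubring L) (σ : L ≃ₐ[K] L) (q : ℕ) :
    A.IsFrobeniusAt σ q ↔
      σ ∈ A.decompositionSubgroup K ∧ ∀ a ∈ A, σ a - a ^ q ∈ A.nonunits := by
  constructor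
  · rintro ⟨hσ, hf⟩
    refine ⟨hσ, fun a ha => ?_⟩
    have h1 := hf (IsLocalRing.residue A ⟨a, ha⟩)
    rw [← IsLocalRing.ResidueField.residue_smul, ← map_pow, ← sub_eq_zero, ← map_sub,
      IsLocalRing.residue_eq_zero_iff, ← ValuationSubring.coe_mem_nonunits_iff] at h1
    exact h1
  · rintro ⟨hσ, hf⟩
    refine ⟨hσ, fun x => ?_⟩
    obtain ⟨a, rfl⟩ := IsLocalRing.residue_surjective x
    rw [← IsLocalRing.ResidueField.residue_smul, ← map_pow, ← sub_eq_zero, ← map_sub,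
      IsLocalRing.residue_eq_zero_iff, ← ValuationSubring.coe_mem_nonunits_iff]
    exact hf a a.2

theorem mem_nonunits_smul_iff (A : ValuationSubring L) (τ : L ≃ₐ[K] L) (x : L) :
    x ∈ (τ • A).nonunits ↔ τ⁻¹ x ∈ A.nonunits := by
  rw [ValuationSubring.mem_nonunits_iff_or, ValuationSubring.mem_nonunits_iff_or,
    ValuationSubring.mem_pointwise_smul_iff_inv_smul_mem, AlgEquiv.smul_def, map_inv₀,
    EmbeddingLike.map_eq_zero_iff]

theorem liesOverPrime_smul (A : ValuationSubring L) (τ : L ≃ₐ[K] L) (q : ℕ)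
    (h : A.LiesOverPrime q) : (τ • A).LiesOverPrime q := by
  unfold ValuationSubring.LiesOverPrime at h ⊢
  rw [mem_nonunits_smul_iff, map_natCast]
  exact h

theorem isFrobeniusAt_conj (A : ValuationSubring L) (σ τ : L ≃ₐ[K] L) (q : ℕ)
    (h : A.IsFrobeniusAt σ q) : (τ • A).IsFrobeniusAt (τ * σ * τ⁻¹) q := by
  rw [isFrobeniusAt_iff] at h ⊢
  obtain ⟨hσ, hf⟩ := h
  refine ⟨?_, fun a ha => ?_⟩
  · rw [ValuationSubring.decompositionSubgroup, MulAction.mem_stabilizer_iff] at hσ ⊢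
    rw [mul_smul, mul_smul, inv_smul_smul, hσ]
  · rw [ValuationSubring.mem_pointwise_smul_iff_inv_smul_mem, AlgEquiv.smul_def] at ha
    rw [mem_nonunits_smul_iff, map_sub, map_pow]
    have h1 := hf _ ha
    have h2 : τ⁻¹ ((τ * σ * τ⁻¹) a) = σ (τ⁻¹ a) := by
      rw [← AlgEquiv.mul_apply, ← AlgEquiv.mul_apply]
      congr 1
      group
    rw [h2]
    exact h1

end Fermat.Agent.ESlib
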