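import Fermat.Agent.ES.Z.ChebFin
import Fermat.Agent.ES.Z.FrobConj
import Fermat.Agent.ES.Z.Two

/-!
# ES part Z3: weak Chebotarev for `G_ℚ`

Every element of `G_ℚ` agrees, on a given finite extension `L` of `ℚ`, with a power of a Frobenius
element at some prime outside a given finite set.
-/

set_option autoImplicit false
set_option synthInstance.maxHeartbeats 200000
open scoped Pointwise NumberField

namespace Fermat.Agent.ESlib

open Fermat.Agent.FrobExists Fermat.Agent.S13lib Fermat.Agent.ESlib.Z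

noncomputable section

attribute [local instance] isAlgebraicQb isAlgClosureQb normalQb isGaloisQb isInvariantZb
  topZb discZb contZb nfK algK

/-- Galois case -/
theorem exists_frobenius_pow_eq_of_isGalois (L : IntermediateField ℚ Qb) [FiniteDimensional ℚ L]
    [IsGalois ℚ L] (g : GQ) (T : Finset ℕ) :
    ∃ ℓ : ℕ, ℓ.Prime ∧ ℓ ∉ T ∧ ∃ A : ValuationSubring Qb, A.LiesOverPrime ℓ ∧
      ∃ σ : GQ, A.IsFrobeniusAt σ ℓ ∧ ∃ b : ℕ, ∀ x ∈ L, (σ ^ b) x = g x := by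
  obtain ⟨ℓ, hℓ, hℓT, h⟩ := exists_prime_forall_frob (L := L) (AlgEquiv.restrictNormalHom L g) T
  obtain ⟨A₀, hA₀⟩ := exists_liesOverPrime ℓ hℓ
  obtain ⟨σ₀, hσ₀⟩ := exists_isFrobeniusAt A₀ hℓ hA₀
  have hfrob : ∀ x : 𝓞 L, (AlgEquiv.restrictNormalHom L σ₀ : Gal(L/ℚ)) • x - x ^ ℓ ∈
      (primeOf A₀).under (𝓞 L) := by
    intro x
    rw [Ideal.mem_comap, map_sub, map_pow]
    have h1 := frob_sub_pow_mem A₀ hσ₀ (algebraMap (𝓞 L) Zb x)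
    have h2 : algebraMap (𝓞 L) Zb ((AlgEquiv.restrictNormalHom L σ₀ : Gal(L/ℚ)) • x) =
        σ₀ • algebraMap (𝓞 L) Zb x := by
      apply Subtype.ext
      exact AlgEquiv.restrictNormal_commutes σ₀ L (x : L)
    rw [h2]
    exact h1
  obtain ⟨τb, b, hb⟩ := h ((primeOf A₀).under (𝓞 L)) (natCast_mem_under L A₀ hA₀)
    (AlgEquiv.restrictNormalHom L σ₀) hfrob
  obtain ⟨τ, hτ⟩ := AlgEquiv.restrictNormalHom_surjective (F := ℚ) (K₁ := L) Qb τb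
  refine ⟨ℓ, hℓ, hℓT, τ⁻¹ • A₀, liesOverPrime_smul A₀ τ⁻¹ ℓ hA₀, τ⁻¹ * σ₀ * τ, ?_, b, ?_⟩
  · have := isFrobeniusAt_conj A₀ σ₀ τ⁻¹ ℓ hσ₀
    rwa [inv_inv] at this
  · intro x hx
    have h1 : AlgEquiv.restrictNormalHom L ((τ⁻¹ * σ₀ * τ) ^ b) = AlgEquiv.restrictNormalHom L g := by
      rw [map_pow, map_mul, map_mul, map_inv, hτ]
      exact hb
    have h2 := AlgEquiv.restrictNormal_commutes ((τ⁻¹ * σ₀ * τ) ^ b) L ⟨x, hx⟩
    have h3 := AlgEquiv.restrictNormal_commutes g L ⟨x, hx⟩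
    have h4 : AlgEquiv.restrictNormal ((τ⁻¹ * σ₀ * τ) ^ b) L = AlgEquiv.restrictNormal g L := h1
    rw [h4] at h2
    exact h2.symm.trans h3

/-- **(Z3) weak Chebotarev.** -/
theorem exists_frobenius_pow_eq (L : IntermediateField ℚ (AlgebraicClosure ℚ))
    [FiniteDimensional ℚ L] (g : AlgebraicClosure ℚ ≃ₐ[ℚ] AlgebraicClosure ℚ) (T : Finset ℕ) :
    ∃ ℓ : ℕ, ℓ.Prime ∧ ℓ ∉ T ∧ ∃ A : ValuationSubring (AlgebraicClosure ℚ), A.LiesOverPrime ℓ ∧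
      ∃ σ : AlgebraicClosure ℚ ≃ₐ[ℚ] AlgebraicClosure ℚ, A.IsFrobeniusAt σ ℓ ∧
        ∃ b : ℕ, ∀ x ∈ L, (σ ^ b) x = g x := by
  have hnorm : Normal ℚ ↥(IntermediateField.normalClosure ℚ ↥L Qb) := normalClosure.normal ℚ _ Qb
  have hgal : IsGalois ℚ ↥(IntermediateField.normalClosure ℚ ↥L Qb) := ⟨⟩
  obtain ⟨ℓ, hℓ, hℓT, A, hA, σ, hσ, b, hb⟩ :=
    exists_frobenius_pow_eq_of_isGalois (IntermediateField.normalClosure ℚ ↥L Qb) g T
  exact ⟨ℓ, hℓ, hℓT, A, hA, σ, hσ, b, fun x hx => hb x (IntermediateField.le_normalClosure L hx)⟩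

end

end Fermat.Agent.ESlib
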