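import Fermat.Agent.ES.Z.Defs

/-!
# ES, part Z: elementary facts on prime ideals of a number field
-/

set_option autoImplicit false

open scoped NumberField

namespace Fermat.Agent.ESlib

variable (K : Type*) [Field K] [NumberField K]

theorem liesOver_of_mem {p : ℕ} (hp : p.Prime) (P : Ideal (𝓞 K)) [hP : P.IsPrime]
    (h : (p : 𝓞 K) ∈ P) : P.LiesOver (Ideal.span {(p : ℤ)}) :=
  (Ideal.liesOver_span_iff hP.ne_top (Nat.prime_iff_prime_int.mp hp)).mpr (by simpa using h)

/-- at most `[K:ℚ]` primes above `p` -/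
theorem card_le_finrank_of_mem {p : ℕ} (hp : p.Prime) (T : Finset (Ideal (𝓞 K)))
    (hT : ∀ P ∈ T, P.IsPrime ∧ (p : 𝓞 K) ∈ P) : T.card ≤ Module.finrank ℚ K := by
  classical
  have hpp : (Ideal.span {(p : ℤ)}).IsPrime :=
    (Ideal.span_singleton_prime (by exact_mod_cast hp.ne_zero)).mpr (Nat.prime_iff_prime_int.mp hp)
  have : Fintype ((Ideal.span {(p : ℤ)}).primesOver (𝓞 K)) :=
    (Algebra.QuasiFinite.finite_primesOver _).fintype
  have h1 := Ideal.sum_ramification_inertia_eq_finrank (Ideal.span {(p : ℤ)}) (𝓞 K)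
  rw [NumberField.RingOfIntegers.rank] at h1
  rw [← h1]
  have h2 : T.card ≤ Fintype.card ((Ideal.span {(p : ℤ)}).primesOver (𝓞 K)) := by
    rw [← Fintype.card_coe]
    refine Fintype.card_le_of_injective
      (fun P => ⟨P.1, (hT P.1 P.2).1, by
        have := (hT P.1 P.2).1
        exact liesOver_of_mem K hp P.1 (hT P.1 P.2).2⟩) ?_
    intro P Q h
    exact Subtype.ext (congrArg (fun x => x.1) h)
  refine h2.trans ?_
  rw [Fintype.card_eq_sum_ones]
  refine Finset.sum_le_sum (fun q _ => ?_)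
  have := q.2.1
  have := q.2.2
  exact Nat.succ_le_of_lt (Nat.mul_pos (q.1.ramificationIdx_pos ℤ) (q.1.inertiaDeg_pos ℤ))

/-- the rational prime below a nonzero prime ideal -/
theorem exists_prime_mem (P : Ideal (𝓞 K)) (hP : Prime P) :
    ∃ p : ℕ, p.Prime ∧ (p : 𝓞 K) ∈ P ∧ ∃ f : ℕ, 1 ≤ f ∧ Ideal.absNorm P = p ^ f := by
  have hP0 : P ≠ ⊥ := hP.ne_zero
  have hPp : P.IsPrime := Ideal.isPrime_of_prime hP
  obtain ⟨g, hg⟩ := IsPrincipalIdealRing.principal (Ideal.under ℤ P)
  have hg' : Ideal.under ℤ P = Ideal.span {g} := hg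
  have hg0 : g ≠ 0 := by
    intro h
    apply hP0
    refine Ideal.eq_bot_of_comap_eq_bot (R := ℤ) ?_
    rw [h, Ideal.span_singleton_eq_bot.mpr rfl] at hg'
    exact hg'
  have hgprime : Prime g := by
    rw [← Ideal.span_singleton_prime hg0, ← hg']
    infer_instance
  have hpp : g.natAbs.Prime := Int.prime_iff_natAbs_prime.mp hgprime
  have hmem : ((g.natAbs : ℕ) : 𝓞 K) ∈ P := by
    have h1 : ((g.natAbs : ℕ) : ℤ) ∈ Ideal.under ℤ P := by
      rw [hg', Ideal.mem_span_singleton]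
      exact Int.dvd_natAbs.mpr dvd_rfl
    rw [Ideal.mem_comap] at h1
    simpa using h1
  refine ⟨g.natAbs, hpp, hmem, P.inertiaDeg ℤ, ?_, ?_⟩
  · exact Nat.succ_le_of_lt (P.inertiaDeg_pos ℤ)
  · have := liesOver_of_mem K hpp P hmem
    exact (Ideal.pow_inertiaDeg g.natAbs P).symm

/-- an ideal of prime norm is a prime ideal containing that prime -/
theorem prime_of_absNorm_eq {p : ℕ} (hp : p.Prime) (I : Ideal (𝓞 K)) (h : Ideal.absNorm I = p) :
    Prime I ∧ (p : 𝓞 K) ∈ I := by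
  have h1 : I.IsPrime := Ideal.isPrime_of_irreducible_absNorm (by rw [h]; exact hp.prime.irreducible)
  have h0 : I ≠ ⊥ := by
    rintro rfl
    rw [Ideal.absNorm_bot] at h
    exact hp.ne_zero h.symm
  refine ⟨(Ideal.prime_iff_isPrime h0).mpr h1, ?_⟩
  rw [← h]
  exact Ideal.absNorm_mem I

/-- **(G1)** -/
theorem idealCount_prime_le {p : ℕ} (hp : p.Prime) : idealCount K p ≤ Module.finrank ℚ K := by
  classical
  have hfin := Ideal.finite_setOfPred_absNorm_eq (S := 𝓞 K) p
  have h1 : idealCount K p = hfin.toFinset.card := by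
    rw [idealCount, ← Set.ncard_eq_toFinset_card _ hfin]
    rfl
  rw [h1]
  refine card_le_finrank_of_mem K hp _ (fun P hP => ?_)
  have hP' : Ideal.absNorm P = p := by simpa using hP
  have := prime_of_absNorm_eq K hp P hP'
  exact ⟨Ideal.isPrime_of_prime this.1, this.2⟩

end Fermat.Agent.ESlib
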