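import Fermat.Agent.ES.Z.Unram
import Fermat.Agent.ES.Z.Primes

/-!
# ES part Z3 (weak Chebotarev), algebraic part

`L/ℚ` a Galois number field with group `G`, `p ∤ disc L`, `P` a prime of `L` above `p` with
Frobenius `φ`, `H ≤ G`, `K = L^H`:   `|H| · a_p(K) = #{τ ∈ G : τ⁻¹ φ τ ∈ H}`.
-/

set_option autoImplicit false
set_option synthInstance.maxHeartbeats 200000
open scoped Pointwise NumberField

namespace Fermat.Agent.ESlib

open Fermat.Agent.ESlib.Z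

noncomputable section

variable {L : Type*} [Field L] [NumberField L] [IsGalois ℚ L]

/-- the fixed field of a subgroup -/
abbrev fixK (H : Subgroup Gal(L/ℚ)) : IntermediateField ℚ L := FixedPoints.intermediateField H

theorem isGaloisGroup_fixK (H : Subgroup Gal(L/ℚ)) : IsGaloisGroup H (𝓞 (fixK H)) (𝓞 L) :=
  IsGaloisGroup.of_isFractionRing H (𝓞 (fixK H)) (𝓞 L) (fixK H) L

attribute [local instance] isGaloisGroup_fixK

theorem smul_algebraMap_fixK (H : Subgroup Gal(L/ℚ)) (h : Gal(L/ℚ)) (hh : h ∈ H)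
    (a : 𝓞 (fixK H)) : h • algebraMap (𝓞 (fixK H)) (𝓞 L) a = algebraMap (𝓞 (fixK H)) (𝓞 L) a := by
  apply Subtype.ext
  exact (a : fixK H).2 ⟨h, hh⟩

/-- **Key lemma.** At an unramified prime, if `P ∩ L^H` has degree one then the decomposition group
of `P` is contained in `H`. -/
theorem mem_of_smul_eq_of_absNorm_under {p : ℕ} (hp : p.Prime)
    (hd : ¬ (p : ℤ) ∣ NumberField.discr L) (H : Subgroup Gal(L/ℚ)) (P : Ideal (𝓞 L)) [P.IsPrime]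
    (hP : (p : 𝓞 L) ∈ P) (hN : Ideal.absNorm (P.under (𝓞 (fixK H))) = p)
    (ψ : Gal(L/ℚ)) (hψ : ψ • P = P) : ψ ∈ H := by
  obtain ⟨-, -, hint⟩ := forall_int_of_absNorm_eq hp _ hN
  let l0 := Ideal.Quotient.stabilizerHom P (P.under ℤ) Gal(L/ℚ) ⟨ψ, hψ⟩
  let l : (𝓞 L ⧸ P) ≃ₐ[𝓞 (fixK H) ⧸ P.under (𝓞 (fixK H))] (𝓞 L ⧸ P) :=
    AlgEquiv.ofRingEquiv (f := l0.toRingEquiv) (by
      intro r
      obtain ⟨a, rfl⟩ := Ideal.Quotient.mk_surjective r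
      obtain ⟨m, hm⟩ := hint a
      have h1 : Ideal.Quotient.mk (P.under (𝓞 (fixK H))) a =
          Ideal.Quotient.mk (P.under (𝓞 (fixK H))) ((m : ℤ) : 𝓞 (fixK H)) :=
        Ideal.Quotient.eq.mpr hm
      rw [h1, map_intCast, map_intCast]
      exact map_intCast l0 m)
  obtain ⟨h', hh'⟩ := Ideal.Quotient.stabilizerHom_surjective (G := H)
    (P.under (𝓞 (fixK H))) P l
  obtain ⟨η, hη⟩ : ∃ η : Gal(L/ℚ), η = ((h' : H) : Gal(L/ℚ)) := ⟨_, rfl⟩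
  have hηH : η ∈ H := hη ▸ (h' : H).2
  have hηP : η • P = P := hη ▸ h'.2
  have hcong : ∀ x : 𝓞 L, ψ • x - η • x ∈ P := by
    intro x
    have h1 := congrArg (fun f => f (Ideal.Quotient.mk P x)) hh'
    simp only [Ideal.Quotient.stabilizerHom_apply] at h1
    rw [← Ideal.Quotient.eq, hη]
    exact h1.symm
  have hone : η⁻¹ * ψ = 1 := by
    refine eq_one_of_not_dvd_discr hp hd P hP _ (fun x => ?_)
    have h1 := hcong x
    rw [← hηP, Ideal.mem_pointwise_smul_iff_inv_smul_mem, smul_sub, inv_smul_smul,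
      ← mul_smul] at h1
    exact h1
  rw [inv_mul_eq_one] at hone
  rw [← hone]
  exact hηH

/-- a Frobenius element stabilises its prime -/
theorem smul_eq_of_frob {p : ℕ} (P : Ideal (𝓞 L)) [hPp : P.IsPrime] (hP0 : P ≠ ⊥)
    (φ : Gal(L/ℚ)) (hφ : ∀ x : 𝓞 L, φ • x - x ^ p ∈ P) (hp : p ≠ 0) : φ • P = P := by
  have hle : P ≤ φ⁻¹ • P := by
    intro x hx
    rw [Ideal.mem_pointwise_smul_iff_inv_smul_mem, inv_inv]
    have h1 := hφ x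
    have h2 : x ^ p ∈ P := Ideal.pow_mem_of_mem P hx p (Nat.pos_of_ne_zero hp)
    have := add_mem h1 h2
    simpa using this
  have hmax : P.IsMaximal := hPp.isMaximal hP0
  have h1 : P = φ⁻¹ • P := hmax.eq_of_le (Ideal.IsPrime.ne_top inferInstance) hle
  conv_lhs => rw [h1]
  rw [smul_inv_smul]

/-- conjugates of a Frobenius element -/
theorem frob_conj {p : ℕ} (P : Ideal (𝓞 L)) (φ : Gal(L/ℚ)) (hφ : ∀ x : 𝓞 L, φ • x - x ^ p ∈ P)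
    (τ : Gal(L/ℚ)) (x : 𝓞 L) : (τ⁻¹ * φ * τ) • x - x ^ p ∈ τ⁻¹ • P := by
  rw [Ideal.mem_pointwise_smul_iff_inv_smul_mem, inv_inv, smul_sub, smul_pow', ← mul_smul]
  have : τ * (τ⁻¹ * φ * τ) = φ * τ := by group
  rw [this, mul_smul]
  exact hφ (τ • x)

variable {p : ℕ} (hp : p.Prime) (hd : ¬ (p : ℤ) ∣ NumberField.discr L)
  (P : Ideal (𝓞 L)) [P.IsPrime] (hP : (p : 𝓞 L) ∈ P)
  (φ : Gal(L/ℚ)) (hφ : ∀ x : 𝓞 L, φ • x - x ^ p ∈ P) (H : Subgroup Gal(L/ℚ))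

/-- the prime of `L^H` below `τ⁻¹ P` -/
def thetaK (τ : Gal(L/ℚ)) : Ideal (𝓞 (fixK H)) := (τ⁻¹ • P).under (𝓞 (fixK H))

include hp hP hφ in
theorem absNorm_thetaK (τ : Gal(L/ℚ)) (hτ : τ⁻¹ * φ * τ ∈ H) :
    Ideal.absNorm (thetaK P H τ) = p := by
  have hmem : (p : 𝓞 (fixK H)) ∈ thetaK P H τ := by
    rw [thetaK, Ideal.mem_comap, map_natCast]
    exact natCast_mem_smul τ⁻¹ hP
  have : (thetaK P H τ).IsPrime := by
    rw [thetaK]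
    infer_instance
  refine absNorm_eq_of_forall_int _ hp hmem (fun x => exists_int_sub_mem _ hp hmem x ?_)
  rw [thetaK, Ideal.mem_comap, map_sub, map_pow]
  have h1 := frob_conj P φ hφ τ (algebraMap (𝓞 (fixK H)) (𝓞 L) x)
  rw [smul_algebraMap_fixK H _ hτ] at h1
  rw [← neg_sub]
  exact neg_mem h1

omit [P.IsPrime] in
theorem thetaK_mul (τ h : Gal(L/ℚ)) (hh : h ∈ H) : thetaK P H (τ * h) = thetaK P H τ := by
  ext x
  rw [thetaK, thetaK, Ideal.mem_comap, Ideal.mem_comap, mul_inv_rev, mul_smul,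
    Ideal.mem_pointwise_smul_iff_inv_smul_mem, inv_inv, smul_algebraMap_fixK H h hh]

include hp hd hP hφ in
theorem exists_thetaK_eq (𝔮 : Ideal (𝓞 (fixK H))) (h𝔮 : Ideal.absNorm 𝔮 = p) :
    ∃ τ : Gal(L/ℚ), τ⁻¹ * φ * τ ∈ H ∧ thetaK P H τ = 𝔮 := by
  obtain ⟨h𝔮prime, h𝔮mem, -⟩ := forall_int_of_absNorm_eq hp 𝔮 h𝔮
  obtain ⟨⟨P', hP'prime, hP'lies⟩⟩ := (inferInstance : Nonempty (𝔮.primesOver (𝓞 L)))
  have hunder : P'.under (𝓞 (fixK H)) = 𝔮 := hP'lies.over.symm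
  have hP'mem : (p : 𝓞 L) ∈ P' := by
    have : (p : 𝓞 (fixK H)) ∈ P'.under (𝓞 (fixK H)) := hunder ▸ h𝔮mem
    rw [Ideal.mem_comap, map_natCast] at this
    exact this
  obtain ⟨τ₀, hτ₀⟩ := exists_smul_eq hp P P' hP hP'mem
  have hP0 : P ≠ ⊥ := by
    intro h
    rw [h, Ideal.mem_bot] at hP
    exact hp.ne_zero (by exact_mod_cast hP)
  have hφP : φ • P = P := smul_eq_of_frob P hP0 φ hφ hp.ne_zero
  refine ⟨τ₀⁻¹, ?_, ?_⟩
  · rw [inv_inv]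
    refine mem_of_smul_eq_of_absNorm_under hp hd H P' hP'mem (by rw [hunder]; exact h𝔮) _ ?_
    rw [hτ₀, ← mul_smul]
    have : τ₀ * φ * τ₀⁻¹ * τ₀ = τ₀ * φ := by group
    rw [this, mul_smul, hφP]
  · rw [thetaK, inv_inv, ← hτ₀, hunder]

include hp hd hP in
theorem inv_mul_mem_of_thetaK_eq (τ τ' : Gal(L/ℚ)) (h : thetaK P H τ = thetaK P H τ')
    (hN : Ideal.absNorm (thetaK P H τ) = p) : τ⁻¹ * τ' ∈ H := by
  obtain ⟨g, hg⟩ := Algebra.IsInvariant.exists_smul_of_under_eq (𝓞 (fixK H)) (𝓞 L) H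
    (τ⁻¹ • P) (τ'⁻¹ • P) h
  have hg' : τ'⁻¹ • P = (g : Gal(L/ℚ)) • (τ⁻¹ • P) := hg
  have h1 : τ⁻¹ * τ' * (g : Gal(L/ℚ)) ∈ H := by
    refine mem_of_smul_eq_of_absNorm_under hp hd H (τ⁻¹ • P) (natCast_mem_smul τ⁻¹ hP) hN _ ?_
    rw [mul_smul, ← hg', mul_smul, smul_inv_smul]
  have h2 := H.mul_mem h1 (H.inv_mem g.2)
  rwa [mul_inv_cancel_right] at h2

include hp hd hP hφ in
/-- **(ALG)** -/
theorem card_mul_idealCount :
    Nat.card H * idealCount (fixK H) p = Nat.card {τ : Gal(L/ℚ) // τ⁻¹ * φ * τ ∈ H} := by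
  classical
  rw [idealCount, ← Nat.card_prod]
  choose sec hsec1 hsec2 using exists_thetaK_eq hp hd P hP φ hφ H
  refine Nat.card_congr (Equiv.ofBijective
    (fun x : H × {I : Ideal (𝓞 (fixK H)) // Ideal.absNorm I = p} =>
      (⟨sec x.2.1 x.2.2 * (x.1 : Gal(L/ℚ)), by
        have h1 := hsec1 x.2.1 x.2.2
        have : (sec x.2.1 x.2.2 * (x.1 : Gal(L/ℚ)))⁻¹ * φ * (sec x.2.1 x.2.2 * (x.1 : Gal(L/ℚ))) =
            (x.1 : Gal(L/ℚ))⁻¹ * ((sec x.2.1 x.2.2)⁻¹ * φ * sec x.2.1 x.2.2) * (x.1 : Gal(L/ℚ)) := by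
          group
        rw [this]
        exact H.mul_mem (H.mul_mem (H.inv_mem x.1.2) h1) x.1.2⟩ :
        {τ : Gal(L/ℚ) // τ⁻¹ * φ * τ ∈ H})) ⟨?_, ?_⟩)
  · rintro ⟨h, 𝔮, h𝔮⟩ ⟨h', 𝔮', h𝔮'⟩ heq
    have h1 : sec 𝔮 h𝔮 * (h : Gal(L/ℚ)) = sec 𝔮' h𝔮' * (h' : Gal(L/ℚ)) :=
      congrArg Subtype.val heq
    have h2 : 𝔮 = 𝔮' := by
      rw [← hsec2 𝔮 h𝔮, ← hsec2 𝔮' h𝔮', ← thetaK_mul P H _ _ h.2, h1, thetaK_mul P H _ _ h'.2]
    subst h2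
    have h3 : (h : Gal(L/ℚ)) = h' := mul_left_cancel h1
    have h4 : h = h' := Subtype.ext h3
    rw [h4]
  · rintro ⟨τ, hτ⟩
    have hN := absNorm_thetaK hp P hP φ hφ H τ hτ
    have h1 : (sec _ hN)⁻¹ * τ ∈ H := by
      refine inv_mul_mem_of_thetaK_eq hp hd P hP H _ _ (hsec2 _ hN) ?_
      rw [hsec2 _ hN]
      exact hN
    refine ⟨⟨⟨_, h1⟩, ⟨_, hN⟩⟩, Subtype.ext ?_⟩
    simp

end

end Fermat.Agent.ESlib
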