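import Fermat.Agent.ES.Z.TwoFields

/-!
# ES part Z3 (weak Chebotarev), analytic part

A finite real linear combination `∑ c_i a_p(K_i)` with `∑ c_i > 0` is positive at infinitely
many primes.
-/

set_option autoImplicit false

open scoped NumberField Topology
open Filter

namespace Fermat.Agent.ESlib

universe u

theorem exists_prime_sum_pos {ι : Type*} (I : Finset ι) (K : ι → Type u) [∀ i, Field (K i)]
    [∀ i, NumberField (K i)] (c : ι → ℝ) (hc : 0 < ∑ i ∈ I, c i) (T : Finset ℕ) :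
    ∃ p : ℕ, p.Prime ∧ p ∉ T ∧ 0 < ∑ i ∈ I, c i * (idealCount (K i) p : ℝ) := by
  classical
  by_contra hcon
  push Not at hcon
  choose C hC using fun i => primeSum_asymp (K i)
  set M : ℝ := ∑ i ∈ I, |c i| * (Module.finrank ℚ (K i) : ℝ) with hM
  have hM0 : 0 ≤ M := Finset.sum_nonneg (fun i _ => mul_nonneg (abs_nonneg _) (Nat.cast_nonneg _))
  set c₀ : ℝ := ∑ i ∈ I, c i with hc₀
  set B : ℝ := (M * T.card + ∑ i ∈ I, |c i| * C i) / c₀ with hB
  have hbig := tendsto_log_one_div_sub.eventually (eventually_gt_atTop B)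
  have hall : ∀ᶠ s in 𝓝[>] (1 : ℝ), ∀ i ∈ I, |primeSum (K i) s - Real.log (1 / (s - 1))| ≤ C i :=
    (Filter.eventually_all_finset I).mpr (fun i _ => hC i)
  obtain ⟨s, hsC, hsB, hs⟩ := (hall.and (hbig.and self_mem_nhdsWithin)).exists
  have hs' : (1 : ℝ) < s := hs
  set Lg : ℝ := Real.log (1 / (s - 1)) with hLg
  set T' : Finset Nat.Primes := T.subtype Nat.Prime with hT'
  have hsm : ∀ i ∈ I, Summable (fun p : Nat.Primes =>
      c i * ((idealCount (K i) (p : ℕ) : ℝ) * ((p : ℕ) : ℝ) ^ (-s))) :=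
    fun i _ => (summable_primeSum (K i) hs').mul_left (c i)
  have e1 : ∑ i ∈ I, c i * primeSum (K i) s =
      ∑' p : Nat.Primes, ∑ i ∈ I, c i * ((idealCount (K i) (p : ℕ) : ℝ) * ((p : ℕ) : ℝ) ^ (-s)) := by
    rw [Summable.tsum_finsetSum hsm]
    refine Finset.sum_congr rfl (fun i _ => ?_)
    rw [tsum_mul_left]
    rfl
  have hterm : ∀ p : Nat.Primes,
      ∑ i ∈ I, c i * ((idealCount (K i) (p : ℕ) : ℝ) * ((p : ℕ) : ℝ) ^ (-s)) ≤
        (if p ∈ T' then M else 0) := by
    intro p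
    have hx0 : 0 ≤ ((p : ℕ) : ℝ) ^ (-s) := Real.rpow_nonneg (Nat.cast_nonneg _) _
    have hx1 : ((p : ℕ) : ℝ) ^ (-s) ≤ 1 := by
      refine Real.rpow_le_one_of_one_le_of_nonpos ?_ (by linarith)
      exact_mod_cast p.2.one_le
    by_cases hp : p ∈ T'
    · rw [if_pos hp, hM]
      refine Finset.sum_le_sum (fun i _ => ?_)
      have a1 : (idealCount (K i) (p : ℕ) : ℝ) ≤ (Module.finrank ℚ (K i) : ℝ) := by
        exact_mod_cast idealCount_prime_le (K i) p.2
      have a0 : (0 : ℝ) ≤ (idealCount (K i) (p : ℕ) : ℝ) := Nat.cast_nonneg _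
      calc c i * ((idealCount (K i) (p : ℕ) : ℝ) * ((p : ℕ) : ℝ) ^ (-s))
          ≤ |c i| * ((idealCount (K i) (p : ℕ) : ℝ) * ((p : ℕ) : ℝ) ^ (-s)) :=
            mul_le_mul_of_nonneg_right (le_abs_self _) (mul_nonneg a0 hx0)
        _ ≤ |c i| * ((Module.finrank ℚ (K i) : ℝ) * 1) :=
            mul_le_mul_of_nonneg_left (mul_le_mul a1 hx1 hx0 (Nat.cast_nonneg _)) (abs_nonneg _)
        _ = |c i| * (Module.finrank ℚ (K i) : ℝ) := by rw [mul_one]
    · rw [if_neg hp]
      have hpT : (p : ℕ) ∉ T := fun h => hp (Finset.mem_subtype.mpr h)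
      have h1 := hcon p p.2 hpT
      have h2 : ∑ i ∈ I, c i * ((idealCount (K i) (p : ℕ) : ℝ) * ((p : ℕ) : ℝ) ^ (-s)) =
          (∑ i ∈ I, c i * (idealCount (K i) (p : ℕ) : ℝ)) * ((p : ℕ) : ℝ) ^ (-s) := by
        rw [Finset.sum_mul]
        exact Finset.sum_congr rfl (fun i _ => by ring)
      rw [h2]
      exact mul_nonpos_of_nonpos_of_nonneg h1 hx0
  have S4 : Summable (fun p : Nat.Primes => if p ∈ T' then M else 0) :=
    summable_of_ne_finset_zero (s := T') (fun p hp => if_neg hp)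
  have hle := (summable_sum hsm).tsum_le_tsum hterm S4
  have h4 : ∑' p : Nat.Primes, (if p ∈ T' then M else 0) ≤ M * T.card := by
    rw [tsum_eq_sum (s := T') (fun p hp => if_neg hp)]
    rw [Finset.sum_congr rfl (fun p hp => if_pos hp), Finset.sum_const, nsmul_eq_mul]
    have : T'.card ≤ T.card := by
      refine Finset.card_le_card_of_injOn (fun p => (p : ℕ))
        (fun p hp => Finset.mem_subtype.mp hp) (fun p _ q _ hpq => Subtype.ext hpq)
    have : (T'.card : ℝ) ≤ (T.card : ℝ) := by exact_mod_cast this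
    nlinarith
  have hlow : c₀ * Lg - ∑ i ∈ I, |c i| * C i ≤ ∑ i ∈ I, c i * primeSum (K i) s := by
    rw [hc₀, Finset.sum_mul, ← Finset.sum_sub_distrib]
    refine Finset.sum_le_sum (fun i hi => ?_)
    have h1 := hsC i hi
    have h2 : c i * (Lg - primeSum (K i) s) ≤ |c i| * C i := by
      calc c i * (Lg - primeSum (K i) s) ≤ |c i * (Lg - primeSum (K i) s)| := le_abs_self _
        _ = |c i| * |primeSum (K i) s - Lg| := by rw [abs_mul, abs_sub_comm]
        _ ≤ |c i| * C i := mul_le_mul_of_nonneg_left h1 (abs_nonneg _)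
    linarith
  have hfin : c₀ * Lg ≤ M * T.card + ∑ i ∈ I, |c i| * C i := by
    rw [e1] at hlow
    linarith
  have : Lg ≤ B := by
    rw [hB, le_div_iff₀ hc]
    linarith
  linarith

end Fermat.Agent.ESlib
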