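import Mathlib

/-!
# ES part Z3 (weak Chebotarev), group theoretic part: Möbius inversion on a cyclic group
-/

set_option autoImplicit false

open ArithmeticFunction

namespace Fermat.Agent.ESlib

variable {G : Type*} [Group G]

/-- `m(x) = ∑_{d ∣ n} μ(d) 1[x ∈ ⟨g^d⟩]`, `n` the order of `g`. -/
noncomputable def genInd (g x : G) : ℤ := by
  classical
  exact ∑ d ∈ (orderOf g).divisors, moebius d * (if x ∈ Subgroup.zpowers (g ^ d) then 1 else 0)

theorem sum_moebius_divisors (m : ℕ) :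
    ∑ d ∈ m.divisors, moebius d = if m = 1 then 1 else 0 := by
  have h := congrArg (fun f : ArithmeticFunction ℤ => f m) coe_zeta_mul_moebius
  simp only [coe_zeta_mul_apply, one_apply] at h
  exact h

theorem pow_mem_zpowers_pow_iff (g : G) {d k : ℕ} (hd : d ∣ orderOf g) :
    g ^ k ∈ Subgroup.zpowers (g ^ d) ↔ d ∣ k := by
  constructor
  · intro h
    obtain ⟨j, hj⟩ := Subgroup.mem_zpowers_iff.mp h
    have h1 : g ^ ((d : ℤ) * j - k) = 1 := by
      rw [zpow_sub, zpow_mul, zpow_natCast, zpow_natCast, hj, mul_inv_cancel]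
    have h2 : (orderOf g : ℤ) ∣ (d : ℤ) * j - k := orderOf_dvd_iff_zpow_eq_one.mpr h1
    have h3 : (d : ℤ) ∣ (d : ℤ) * j - k := (Int.natCast_dvd_natCast.mpr hd).trans h2
    have h4 : (d : ℤ) ∣ k := by
      have := (dvd_sub_right (dvd_mul_right (d : ℤ) j)).mp h3
      exact this
    exact Int.natCast_dvd_natCast.mp h4
  · rintro ⟨j, rfl⟩
    rw [pow_mul]
    exact Subgroup.npow_mem_zpowers _ _

theorem genInd_pow (g : G) (hg : 0 < orderOf g) (k : ℕ) :
    genInd g (g ^ k) = if Nat.gcd (orderOf g) k = 1 then 1 else 0 := by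
  classical
  rw [genInd, ← sum_moebius_divisors]
  have h1 : ∀ d ∈ (orderOf g).divisors,
      moebius d * (if g ^ k ∈ Subgroup.zpowers (g ^ d) then 1 else 0) =
        if d ∣ k then moebius d else 0 := by
    intro d hd
    have hiff := pow_mem_zpowers_pow_iff g (k := k) (Nat.dvd_of_mem_divisors hd)
    by_cases hdk : d ∣ k
    · rw [if_pos (hiff.mpr hdk), if_pos hdk, mul_one]
    · rw [if_neg (fun h => hdk (hiff.mp h)), if_neg hdk, mul_zero]
  rw [Finset.sum_congr rfl h1, ← Finset.sum_filter]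
  refine Finset.sum_congr ?_ (fun _ _ => rfl)
  ext d
  simp only [Finset.mem_filter, Nat.mem_divisors]
  constructor
  · rintro ⟨⟨h1, h2⟩, h3⟩
    exact ⟨Nat.dvd_gcd h1 h3, Nat.gcd_ne_zero_left h2⟩
  · rintro ⟨h1, -⟩
    exact ⟨⟨h1.trans (Nat.gcd_dvd_left _ _), hg.ne'⟩, h1.trans (Nat.gcd_dvd_right _ _)⟩

theorem genInd_of_not_mem (g x : G) (hx : x ∉ Subgroup.zpowers g) : genInd g x = 0 := by
  classical
  rw [genInd]
  refine Finset.sum_eq_zero (fun d _ => ?_)
  rw [if_neg, mul_zero]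
  intro h
  apply hx
  exact (Subgroup.zpowers_le.mpr (Subgroup.npow_mem_zpowers g d)) h

theorem exists_pow_of_mem_zpowers (g x : G) (hg : 0 < orderOf g) (hx : x ∈ Subgroup.zpowers g) :
    ∃ k : ℕ, x = g ^ k := by
  have hfin : IsOfFinOrder g := orderOf_pos_iff.mp hg
  obtain ⟨k, hk⟩ := (hfin.mem_powers_iff_mem_zpowers).mpr hx
  exact ⟨k, hk.symm⟩

theorem genInd_nonneg (g x : G) (hg : 0 < orderOf g) : 0 ≤ genInd g x := by
  by_cases hx : x ∈ Subgroup.zpowers g
  · obtain ⟨k, rfl⟩ := exists_pow_of_mem_zpowers g x hg hx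
    rw [genInd_pow g hg]
    split_ifs <;> simp
  · rw [genInd_of_not_mem g x hx]

theorem genInd_self (g : G) (hg : 0 < orderOf g) : genInd g g = 1 := by
  have := genInd_pow g hg 1
  rw [pow_one] at this
  rw [this]
  simp

theorem mem_zpowers_of_genInd_pos (g x : G) (hg : 0 < orderOf g) (h : 0 < genInd g x) :
    ∃ b : ℕ, x ^ b = g := by
  by_cases hx : x ∈ Subgroup.zpowers g
  · obtain ⟨k, rfl⟩ := exists_pow_of_mem_zpowers g x hg hx
    rw [genInd_pow g hg] at h
    split_ifs at h with h1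
    · exact exists_pow_eq_self_of_coprime (Nat.coprime_comm.mp h1)
    · exact absurd h (lt_irrefl _)
  · rw [genInd_of_not_mem g x hx] at h
    exact absurd h (lt_irrefl _)

end Fermat.Agent.ESlib
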