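import Fermat.Agent.ES.Z.ChebAlg
import Fermat.Agent.ES.Z.ChebAn
import Fermat.Agent.ES.Z.ChebGrp

/-!
# ES part Z3 (weak Chebotarev) for a Galois number field
-/

set_option autoImplicit false
set_option synthInstance.maxHeartbeats 200000
open scoped Pointwise NumberField

namespace Fermat.Agent.ESlib

noncomputable section

theorem sum_genInd {G : Type*} [Group G] [Fintype G] (g : G) (X : G → G) :
    ∑ τ : G, genInd g (X τ) =
      ∑ d ∈ (orderOf g).divisors,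
        ArithmeticFunction.moebius d * (Nat.card {τ : G // X τ ∈ Subgroup.zpowers (g ^ d)} : ℤ) := by
  classical
  simp only [genInd]
  rw [Finset.sum_comm]
  refine Finset.sum_congr rfl (fun d _ => ?_)
  rw [← Finset.mul_sum]
  congr 1
  rw [Finset.sum_boole, Nat.card_eq_fintype_card, Fintype.card_subtype]

variable {L : Type*} [Field L] [NumberField L] [IsGalois ℚ L]

theorem exists_prime_forall_frob (g : Gal(L/ℚ)) (T : Finset ℕ) :
    ∃ p : ℕ, p.Prime ∧ p ∉ T ∧ ∀ (P : Ideal (𝓞 L)) [P.IsPrime], (p : 𝓞 L) ∈ P →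
      ∀ φ : Gal(L/ℚ), (∀ x : 𝓞 L, φ • x - x ^ p ∈ P) →
        ∃ τ : Gal(L/ℚ), ∃ b : ℕ, (τ⁻¹ * φ * τ) ^ b = g := by
  classical
  have hg : 0 < orderOf g := orderOf_pos g
  set c : ℕ → ℝ := fun d =>
    (ArithmeticFunction.moebius d : ℝ) * (Nat.card (Subgroup.zpowers (g ^ d)) : ℝ) with hc
  have hcpos : 0 < ∑ d ∈ (orderOf g).divisors, c d := by
    have h1 := sum_genInd g (fun τ => τ)
    have h2 : (1 : ℤ) ≤ ∑ τ : Gal(L/ℚ), genInd g τ := by
      rw [← genInd_self g hg]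
      exact Finset.single_le_sum (f := fun τ => genInd g τ) (fun τ _ => genInd_nonneg g τ hg)
        (Finset.mem_univ g)
    rw [h1] at h2
    have h3 : ((1 : ℤ) : ℝ) ≤ ((∑ d ∈ (orderOf g).divisors, ArithmeticFunction.moebius d *
        (Nat.card {τ : Gal(L/ℚ) // τ ∈ Subgroup.zpowers (g ^ d)} : ℤ) : ℤ) : ℝ) := by
      exact_mod_cast h2
    push_cast at h3
    have h4 : ∑ d ∈ (orderOf g).divisors, c d = ∑ d ∈ (orderOf g).divisors,
        (ArithmeticFunction.moebius d : ℝ) *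
          (Nat.card {τ : Gal(L/ℚ) // τ ∈ Subgroup.zpowers (g ^ d)} : ℝ) := rfl
    rw [h4]
    linarith
  obtain ⟨p, hp, hpT, hpos⟩ := exists_prime_sum_pos (orderOf g).divisors
    (fun d => fixK (Subgroup.zpowers (g ^ d))) c hcpos
    (T ∪ (NumberField.discr L).natAbs.primeFactors)
  simp only [Finset.mem_union, not_or] at hpT
  obtain ⟨hpT, hd⟩ := hpT
  have hd' : ¬ (p : ℤ) ∣ NumberField.discr L := by
    intro hdvd
    exact hd (Nat.mem_primeFactors.mpr ⟨hp, Int.natCast_dvd.mp hdvd,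
      Int.natAbs_ne_zero.mpr (NumberField.discr_ne_zero L)⟩)
  refine ⟨p, hp, hpT, fun P _ hP φ hφ => ?_⟩
  have h1 := sum_genInd g (fun τ => τ⁻¹ * φ * τ)
  have h2 : ((∑ τ : Gal(L/ℚ), genInd g (τ⁻¹ * φ * τ) : ℤ) : ℝ) =
      ∑ d ∈ (orderOf g).divisors,
        c d * (idealCount (fixK (Subgroup.zpowers (g ^ d))) p : ℝ) := by
    rw [h1]
    push_cast
    refine Finset.sum_congr rfl (fun d _ => ?_)
    have h3 := card_mul_idealCount hp hd' P hP φ hφ (Subgroup.zpowers (g ^ d))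
    rw [← h3, hc]
    push_cast
    ring
  rw [← h2] at hpos
  have hpos' : 0 < ∑ τ : Gal(L/ℚ), genInd g (τ⁻¹ * φ * τ) := by exact_mod_cast hpos
  obtain ⟨τ, -, hτ⟩ := Finset.exists_lt_of_sum_lt (s := Finset.univ)
    (f := fun _ : Gal(L/ℚ) => (0 : ℤ)) (g := fun τ => genInd g (τ⁻¹ * φ * τ))
    (by simpa using hpos')
  exact ⟨τ, mem_zpowers_of_genInd_pos g _ hg hτ⟩

end

end Fermat.Agent.ESlib
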