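import Mathlib

/-!
# ES, part Z: finite Euler product inequalities for multiplicative weights on ideals
-/

set_option autoImplicit false

open UniqueFactorizationMonoid

namespace Fermat.Agent.ESlib

variable {R : Type*} [CommRing R] [IsDedekindDomain R]

/-- squarefree part of the Euler product: lower bound for the sum over all ideals -/
theorem prod_one_add_le_tsum (w : Ideal R →* ℝ) (hw : ∀ I, 0 ≤ w I) (hs : Summable w)
    (T : Finset (Ideal R)) (hT : ∀ P ∈ T, Prime P) :
    ∏ P ∈ T, (1 + w P) ≤ ∑' I, w I := by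
  classical
  rw [Finset.prod_one_add]
  have h1 : ∀ t ∈ T.powerset, ∏ i ∈ t, w i = w (∏ i ∈ t, i) := fun t _ => (map_prod w _ t).symm
  rw [Finset.sum_congr rfl h1]
  have hinj : Set.InjOn (fun t : Finset (Ideal R) => ∏ i ∈ t, i) (T.powerset : Set (Finset (Ideal R))) := by
    intro t ht t' ht' h
    have ht1 : ∀ P ∈ t.val, Prime P := fun P hP => hT P (Finset.mem_powerset.mp ht hP)
    have ht2 : ∀ P ∈ t'.val, Prime P := fun P hP => hT P (Finset.mem_powerset.mp ht' hP)
    have e1 := normalizedFactors_prod_of_prime ht1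
    have e2 := normalizedFactors_prod_of_prime ht2
    have h' : t.val.prod = t'.val.prod := by
      have h2 : ∏ i ∈ t, i = ∏ i ∈ t', i := h
      rw [Finset.prod_eq_multiset_prod, Finset.prod_eq_multiset_prod, Multiset.map_id',
        Multiset.map_id'] at h2
      exact h2
    rw [h', e2] at e1
    exact (Finset.val_inj.mp e1).symm
  rw [← Finset.sum_image (f := fun I => w I) hinj]
  exact hs.sum_le_tsum _ (fun _ _ => hw _)

/-- value of a multiplicative weight in terms of the factorisation -/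
theorem weight_eq_prod_count (w : Ideal R →* ℝ) (T : Finset (Ideal R)) {I : Ideal R} (hI : I ≠ 0)
    (hT : ∀ P ∈ normalizedFactors I, P ∈ T) [DecidableEq (Ideal R)] :
    w I = ∏ P ∈ T, w P ^ (normalizedFactors I).count P := by
  conv_lhs => rw [← Ideal.prod_normalizedFactors_eq_self hI]
  rw [map_multiset_prod, Finset.prod_multiset_map_count]
  refine Finset.prod_subset (fun P hP => hT P (Multiset.mem_toFinset.mp hP)) (fun P _ hP => ?_)
  rw [Multiset.count_eq_zero_of_notMem (fun h => hP (Multiset.mem_toFinset.mpr h)), pow_zero]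

/-- finite form of the upper bound by the Euler product -/
theorem sum_le_prod_inv (w : Ideal R →* ℝ) (hw : ∀ I, 0 ≤ w I) (hw0 : w 0 = 0)
    (hw1 : ∀ P, Prime P → w P < 1) (𝓘 : Finset (Ideal R)) :
    ∃ T : Finset (Ideal R), (∀ P ∈ T, Prime P) ∧ ∑ I ∈ 𝓘, w I ≤ ∏ P ∈ T, (1 - w P)⁻¹ := by
  classical
  set T : Finset (Ideal R) := 𝓘.biUnion (fun I => (normalizedFactors I).toFinset) with hTdef
  have hTprime : ∀ P ∈ T, Prime P := by
    intro P hP
    obtain ⟨I, _, hPI⟩ := Finset.mem_biUnion.mp hP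
    exact prime_of_normalized_factor P (Multiset.mem_toFinset.mp hPI)
  refine ⟨T, hTprime, ?_⟩
  set 𝓙 := 𝓘.filter (fun I => I ≠ 0) with hJ
  have hsum : ∑ I ∈ 𝓘, w I = ∑ I ∈ 𝓙, w I := by
    rw [hJ, Finset.sum_filter]
    refine Finset.sum_congr rfl (fun I _ => ?_)
    by_cases h : I = 0
    · rw [if_neg (not_not.mpr h), h, hw0]
    · rw [if_pos h]
  have hmemT : ∀ I ∈ 𝓙, ∀ P ∈ normalizedFactors I, P ∈ T := by
    intro I hI P hP
    exact Finset.mem_biUnion.mpr ⟨I, (Finset.mem_filter.mp hI).1, Multiset.mem_toFinset.mpr hP⟩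
  set E : ℕ := 𝓙.sup (fun I => Multiset.card (normalizedFactors I)) + 1 with hE
  let φ : Ideal R → (T → ℕ) := fun I P => (normalizedFactors I).count P.1
  let g : (T → ℕ) → ℝ := fun e => ∏ P : T, w P.1 ^ e P
  have hg : ∀ I ∈ 𝓙, w I = g (φ I) := by
    intro I hI
    rw [weight_eq_prod_count w T (Finset.mem_filter.mp hI).2 (hmemT I hI)]
    exact (Finset.prod_coe_sort T (fun P => w P ^ (normalizedFactors I).count P)).symm
  have hinj : Set.InjOn φ (𝓙 : Set (Ideal R)) := by
    intro I hI J hJ' h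
    have hIJ : normalizedFactors I = normalizedFactors J := by
      ext P
      by_cases hP : P ∈ T
      · exact congrFun h ⟨P, hP⟩
      · rw [Multiset.count_eq_zero_of_notMem (fun h' => hP (hmemT I hI P h')),
          Multiset.count_eq_zero_of_notMem (fun h' => hP (hmemT J hJ' P h'))]
    rw [← Ideal.prod_normalizedFactors_eq_self (Finset.mem_filter.mp hI).2, hIJ,
      Ideal.prod_normalizedFactors_eq_self (Finset.mem_filter.mp hJ').2]
  rw [hsum, Finset.sum_congr rfl hg, ← Finset.sum_image (f := g) hinj]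
  have hsub : 𝓙.image φ ⊆ Fintype.piFinset (fun _ : T => Finset.range E) := by
    intro e he
    obtain ⟨I, hI, rfl⟩ := Finset.mem_image.mp he
    rw [Fintype.mem_piFinset]
    intro P
    rw [Finset.mem_range, hE, Nat.lt_succ_iff]
    exact (Multiset.count_le_card _ _).trans
      (Finset.le_sup (f := fun I => Multiset.card (normalizedFactors I)) hI)
  refine (Finset.sum_le_sum_of_subset_of_nonneg hsub
    (fun e _ _ => Finset.prod_nonneg (fun P _ => pow_nonneg (hw _) _))).trans ?_
  rw [← Finset.prod_univ_sum, ← Finset.prod_coe_sort T (fun P => (1 - w P)⁻¹)]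
  refine Finset.prod_le_prod (fun P _ => Finset.sum_nonneg (fun k _ => pow_nonneg (hw _) _))
    (fun P _ => ?_)
  exact sum_le_hasSum _ (fun k _ => pow_nonneg (hw _) _)
    (hasSum_geometric_of_lt_one (hw _) (hw1 _ (hTprime _ P.2)))

/-- upper bound of the sum over all ideals by the Euler product -/
theorem tsum_le_of_prod_inv_le (w : Ideal R →* ℝ) (hw : ∀ I, 0 ≤ w I) (hw0 : w 0 = 0)
    (hw1 : ∀ P, Prime P → w P < 1) (B : ℝ)
    (hB : ∀ T : Finset (Ideal R), (∀ P ∈ T, Prime P) → ∏ P ∈ T, (1 - w P)⁻¹ ≤ B) :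
    ∑' I, w I ≤ B := by
  have hB0 : 0 ≤ B := le_trans (by simp) (hB ∅ (by simp))
  refine tsum_le_of_sum_le' hB0 (fun 𝓘 => ?_)
  obtain ⟨T, hT, h⟩ := sum_le_prod_inv w hw hw0 hw1 𝓘
  exact h.trans (hB T hT)

end Fermat.Agent.ESlib
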