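import Mathlib
import Fermat.Agent.ES.Z.Analytic
import Fermat.Agent.ES.Z.Split

/-!
# ES part Z: Frobenius elements avoid two proper open normal subgroups

`exists_frobenius_not_mem`: if `H₁`, `H₂` are open normal subgroups of `G_ℚ` of index `≥ 2` and
`≥ 3`, containing all inertia groups outside a finite set `T` of primes, then there is a prime
`ℓ ∉ T` all of whose Frobenius elements lie outside `H₁` and outside `H₂`.
-/

set_option autoImplicit false
set_option synthInstance.maxHeartbeats 200000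
open scoped Pointwise NumberField

namespace Fermat.Agent.ESlib

open Fermat.Agent.FrobExists Fermat.Agent.S13lib Fermat.Agent.ESlib.Z

noncomputable section

attribute [local instance] isAlgebraicQb isAlgClosureQb normalQb isGaloisQb isInvariantZb
  topZb discZb contZb nfK

theorem Z.exists_fixedField (H : Subgroup GQ) [H.Normal] (ho : IsOpen (H : Set GQ)) :
    ∃ K : IntermediateField ℚ Qb, K.fixingSubgroup = H ∧ FiniteDimensional ℚ K ∧ IsGalois ℚ K ∧
      Module.finrank ℚ K = H.index := by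
  set K : IntermediateField ℚ Qb := IntermediateField.fixedField H with hK
  have hclosed : IsClosed (H : Set GQ) := H.isClosed_of_isOpen ho
  have hfix : K.fixingSubgroup = H :=
    InfiniteGalois.fixingSubgroup_fixedField ⟨H, hclosed⟩
  refine ⟨K, hfix, (InfiniteGalois.isOpen_iff_finite K).mp (by rw [hfix]; exact ho),
    (InfiniteGalois.normal_iff_isGalois K).mp (by rw [hfix]; infer_instance), ?_⟩
  rw [IntermediateField.finrank_eq_fixingSubgroup_index, hfix]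

/-- **ES part Z.** -/
theorem exists_frobenius_not_mem (H₁ H₂ : Subgroup GQ) [H₁.Normal] [H₂.Normal]
    (ho₁ : IsOpen (H₁ : Set GQ)) (ho₂ : IsOpen (H₂ : Set GQ)) (h₁ : H₁ ≠ ⊤) (h₂ : 2 < H₂.index)
    (T : Finset ℕ)
    (hin : ∀ ℓ : ℕ, ℓ.Prime → ℓ ∉ T → ∀ A : ValuationSubring (AlgebraicClosure ℚ),
      A.LiesOverPrime ℓ → A.inertiaSubgroupIn ℚ ≤ H₁ ⊓ H₂) :
    ∃ ℓ : ℕ, ℓ.Prime ∧ ℓ ∉ T ∧ ∀ A : ValuationSubring (AlgebraicClosure ℚ), A.LiesOverPrime ℓ →
      ∀ σ : GQ, A.IsFrobeniusAt σ ℓ → σ ∉ H₁ ∧ σ ∉ H₂ := by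
  by_contra hcon
  push Not at hcon
  obtain ⟨K₁, hf₁, hfd₁, hg₁, hr₁⟩ := exists_fixedField H₁ ho₁
  obtain ⟨K₂, hf₂, hfd₂, hg₂, hr₂⟩ := exists_fixedField H₂ ho₂
  have hn₁ : 2 ≤ Module.finrank ℚ K₁ := by
    have hpos : 0 < Module.finrank ℚ K₁ := Module.finrank_pos
    have hne : Module.finrank ℚ K₁ ≠ 1 := by
      rw [hr₁]
      intro h
      exact h₁ (Subgroup.index_eq_one.mp h)
    omega
  have hn₂ : 3 ≤ Module.finrank ℚ K₂ := by rw [hr₂]; exact h₂
  refine not_forall_hasSplit_or K₁ K₂ (n₁ := Module.finrank ℚ K₁) (n₂ := Module.finrank ℚ K₂)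
    (by omega) (by omega) ?_ T ?_
  · have e₁ : (2 : ℝ) ≤ (Module.finrank ℚ K₁ : ℝ) := by exact_mod_cast hn₁
    have e₂ : (3 : ℝ) ≤ (Module.finrank ℚ K₂ : ℝ) := by exact_mod_cast hn₂
    have i₁ : (1 : ℝ) / (Module.finrank ℚ K₁ : ℝ) ≤ 1 / 2 :=
      one_div_le_one_div_of_le (by norm_num) e₁
    have i₂ : (1 : ℝ) / (Module.finrank ℚ K₂ : ℝ) ≤ 1 / 3 :=
      one_div_le_one_div_of_le (by norm_num) e₂
    linarith
  · intro ℓ hℓ hℓT
    obtain ⟨A, hA, σ, hσ, hmem⟩ := hcon ℓ hℓ hℓT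
    have hinA := hin ℓ hℓ hℓT A hA
    by_cases h : σ ∈ H₁
    · left
      exact hasSplit_of_frobenius K₁ hℓ A hA (by rw [hf₁]; exact hinA.trans inf_le_left) σ hσ
        (by rw [hf₁]; exact h)
    · right
      exact hasSplit_of_frobenius K₂ hℓ A hA (by rw [hf₂]; exact hinA.trans inf_le_right) σ hσ
        (by rw [hf₂]; exact hmem h)

/-- One subgroup version: a proper open normal subgroup of `G_ℚ`, unramified outside `T`, misses
all the Frobenius elements at some prime `ℓ ∉ T`. -/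
theorem exists_frobenius_not_mem_one (H : Subgroup GQ) [H.Normal]
    (ho : IsOpen (H : Set GQ)) (h : H ≠ ⊤) (T : Finset ℕ)
    (hin : ∀ ℓ : ℕ, ℓ.Prime → ℓ ∉ T → ∀ A : ValuationSubring (AlgebraicClosure ℚ),
      A.LiesOverPrime ℓ → A.inertiaSubgroupIn ℚ ≤ H) :
    ∃ ℓ : ℕ, ℓ.Prime ∧ ℓ ∉ T ∧ ∀ A : ValuationSubring (AlgebraicClosure ℚ), A.LiesOverPrime ℓ →
      ∀ σ : GQ, A.IsFrobeniusAt σ ℓ → σ ∉ H := by
  by_contra hcon
  push Not at hcon
  obtain ⟨K₁, hf₁, hfd₁, hg₁, hr₁⟩ := exists_fixedField H ho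
  have hn₁ : 2 ≤ Module.finrank ℚ K₁ := by
    have hpos : 0 < Module.finrank ℚ K₁ := Module.finrank_pos
    have hne : Module.finrank ℚ K₁ ≠ 1 := by
      rw [hr₁]
      intro h'
      exact h (Subgroup.index_eq_one.mp h')
    omega
  refine not_forall_hasSplit_or K₁ K₁ (n₁ := Module.finrank ℚ K₁) (n₂ := 3 * Module.finrank ℚ K₁)
    (by omega) (by omega) ?_ T ?_
  · have e₁ : (2 : ℝ) ≤ (Module.finrank ℚ K₁ : ℝ) := by exact_mod_cast hn₁
    have i₁ : (1 : ℝ) / (Module.finrank ℚ K₁ : ℝ) ≤ 1 / 2 :=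
      one_div_le_one_div_of_le (by norm_num) e₁
    have i₂ : (1 : ℝ) / ((3 * Module.finrank ℚ K₁ : ℕ) : ℝ) ≤ 1 / 3 := by
      refine one_div_le_one_div_of_le (by norm_num) ?_
      push_cast
      linarith
    linarith
  · intro ℓ hℓ hℓT
    obtain ⟨A, hA, σ, hσ, hmem⟩ := hcon ℓ hℓ hℓT
    left
    exact hasSplit_of_frobenius K₁ hℓ A hA (by rw [hf₁]; exact hin ℓ hℓ hℓT A hA) σ hσ
      (by rw [hf₁]; exact hmem)

end

end Fermat.Agent.ESlib
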