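import Fermat.Agent.ES.Z.Defs

/-!
# ES, part Z: the Dedekind zeta function on the real half line `s > 1` as a sum over ideals
-/

set_option autoImplicit false

open scoped NumberField Topology
open Filter

namespace Fermat.Agent.ESlib

variable (K : Type*) [Field K] [NumberField K]

/-- the multiplicative weight `I ↦ N(I)^{-s}` -/
noncomputable def normWeight (s : ℝ) : Ideal (𝓞 K) →* ℝ where
  toFun I := ((Ideal.absNorm I : ℕ) : ℝ) ^ (-s)
  map_one' := by simp
  map_mul' I J := by
    rw [map_mul, Nat.cast_mul, Real.mul_rpow (Nat.cast_nonneg _) (Nat.cast_nonneg _)]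

theorem normWeight_apply (s : ℝ) (I : Ideal (𝓞 K)) :
    normWeight K s I = ((Ideal.absNorm I : ℕ) : ℝ) ^ (-s) := rfl

theorem normWeight_nonneg (s : ℝ) (I : Ideal (𝓞 K)) : 0 ≤ normWeight K s I :=
  Real.rpow_nonneg (Nat.cast_nonneg _) _

theorem normWeight_zero {s : ℝ} (hs : s ≠ 0) : normWeight K s 0 = 0 := by
  rw [normWeight_apply, Ideal.zero_eq_bot, Ideal.absNorm_bot, Nat.cast_zero,
    Real.zero_rpow (neg_ne_zero.mpr hs)]

/-- the real Dedekind zeta function, as a sum over ideals -/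
noncomputable def zetaR (s : ℝ) : ℝ := ∑' I : Ideal (𝓞 K), normWeight K s I

/-- the `n`-th term of the Dirichlet series, real version -/
theorem term_eq (s : ℝ) (hs : s ≠ 0) (n : ℕ) :
    LSeries.term (fun n ↦ (Nat.card {I : Ideal (𝓞 K) // Ideal.absNorm I = n} : ℂ)) (s : ℂ) n =
      (((idealCount K n : ℝ) * (n : ℝ) ^ (-s) : ℝ) : ℂ) := by
  rcases eq_or_ne n 0 with rfl | hn
  · simp [Real.zero_rpow (neg_ne_zero.mpr hs)]
  · rw [LSeries.term_of_ne_zero hn, idealCount, Real.rpow_neg (Nat.cast_nonneg _)]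
    push_cast
    rw [Complex.ofReal_cpow (Nat.cast_nonneg _)]
    simp [div_eq_mul_inv]

instance finite_fiber (n : ℕ) : Finite {I : Ideal (𝓞 K) // Ideal.absNorm I = n} :=
  (Ideal.finite_setOfPred_absNorm_eq (S := 𝓞 K) n).to_subtype

theorem tsum_fiber (s : ℝ) (n : ℕ) :
    ∑' y : {I : Ideal (𝓞 K) // Ideal.absNorm I = n},
      normWeight K s (Equiv.sigmaFiberEquiv (fun I : Ideal (𝓞 K) => Ideal.absNorm I) ⟨n, y⟩) =
      (idealCount K n : ℝ) * (n : ℝ) ^ (-s) := by
  have : ∀ y : {I : Ideal (𝓞 K) // Ideal.absNorm I = n},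
      normWeight K s (Equiv.sigmaFiberEquiv (fun I : Ideal (𝓞 K) => Ideal.absNorm I) ⟨n, y⟩) =
        (n : ℝ) ^ (-s) := by
    intro y
    rw [normWeight_apply]
    simp only [Equiv.sigmaFiberEquiv_apply]
    rw [y.2]
  rw [tsum_congr this, tsum_const, idealCount, nsmul_eq_mul]

theorem summable_sigma_iff (s : ℝ) :
    Summable (normWeight K s) ↔ Summable (fun n : ℕ => (idealCount K n : ℝ) * (n : ℝ) ^ (-s)) := by
  rw [← (Equiv.sigmaFiberEquiv (fun I : Ideal (𝓞 K) => Ideal.absNorm I)).summable_iff,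
    summable_sigma_of_nonneg (fun x => by
      simp only [Function.comp_apply]; exact normWeight_nonneg K s _)]
  constructor
  · rintro ⟨-, h⟩
    refine h.congr (fun n => ?_)
    exact tsum_fiber K s n
  · intro h
    refine ⟨fun n => Summable.of_finite, h.congr (fun n => ?_)⟩
    exact (tsum_fiber K s n).symm

theorem zetaR_eq_tsum {s : ℝ} (h : Summable (normWeight K s)) :
    zetaR K s = ∑' n : ℕ, (idealCount K n : ℝ) * (n : ℝ) ^ (-s) := by
  have h' := (Equiv.sigmaFiberEquiv (fun I : Ideal (𝓞 K) => Ideal.absNorm I)).summable_iff.mpr h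
  rw [zetaR, ← (Equiv.sigmaFiberEquiv (fun I : Ideal (𝓞 K) => Ideal.absNorm I)).tsum_eq]
  refine (Summable.tsum_sigma h').trans ?_
  exact tsum_congr (fun n => tsum_fiber K s n)

/-- the complex Dedekind zeta function at a real point -/
theorem dedekindZeta_ofReal {s : ℝ} (hs : s ≠ 0) :
    NumberField.dedekindZeta K (s : ℂ) =
      ((∑' n : ℕ, (idealCount K n : ℝ) * (n : ℝ) ^ (-s) : ℝ) : ℂ) := by
  rw [NumberField.dedekindZeta, LSeries, Complex.ofReal_tsum]
  exact tsum_congr (fun n => term_eq K s hs n)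

theorem tendsto_sub_one_mul_tsum :
    Tendsto (fun s : ℝ => (s - 1) * ∑' n : ℕ, (idealCount K n : ℝ) * (n : ℝ) ^ (-s)) (𝓝[>] 1)
      (𝓝 (NumberField.dedekindZeta_residue K)) := by
  have h := NumberField.tendsto_sub_one_mul_dedekindZeta_nhdsGT K
  have h2 := (Complex.continuous_re.tendsto _).comp h
  simp only [Complex.ofReal_re] at h2
  refine h2.congr' ?_
  filter_upwards [self_mem_nhdsWithin] with s hs
  have hs0 : s ≠ 0 := by
    have : (1 : ℝ) < s := hs
    linarith
  simp only [Function.comp_apply]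
  rw [dedekindZeta_ofReal K hs0, ← Complex.ofReal_one, ← Complex.ofReal_sub, ← Complex.ofReal_mul,
    Complex.ofReal_re]

/-- near `1⁺` the series converges (if not, its sum would be the junk value `0`). -/
theorem eventually_summable : ∀ᶠ s in 𝓝[>] (1 : ℝ), Summable (normWeight K s) := by
  have h := tendsto_sub_one_mul_tsum K
  have hpos := NumberField.dedekindZeta_residue_pos K
  filter_upwards [h.eventually (lt_mem_nhds hpos)] with s hs
  rw [summable_sigma_iff]
  by_contra hcon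
  rw [tsum_eq_zero_of_not_summable hcon, mul_zero] at hs
  exact lt_irrefl _ hs

/-- `log ζ_K(s) = log (1/(s-1)) + O(1)` as `s → 1⁺`. -/
theorem log_zetaR_asymp :
    ∃ C : ℝ, ∀ᶠ s in 𝓝[>] (1 : ℝ), |Real.log (zetaR K s) - Real.log (1 / (s - 1))| ≤ C := by
  have h := tendsto_sub_one_mul_tsum K
  have hpos := NumberField.dedekindZeta_residue_pos K
  have hlog := (Real.continuousAt_log hpos.ne').tendsto.comp h
  refine ⟨|Real.log (NumberField.dedekindZeta_residue K)| + 1, ?_⟩
  have h1 : ∀ᶠ s in 𝓝[>] (1 : ℝ),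
      |Real.log ((s - 1) * ∑' n : ℕ, (idealCount K n : ℝ) * (n : ℝ) ^ (-s))| <
        |Real.log (NumberField.dedekindZeta_residue K)| + 1 :=
    (continuous_abs.tendsto _).comp hlog |>.eventually (gt_mem_nhds (by linarith))
  filter_upwards [h1, eventually_summable K, self_mem_nhdsWithin,
    h.eventually (lt_mem_nhds hpos)] with s hs hsum hs1 hs2
  have hs1' : 0 < s - 1 := by
    have : (1 : ℝ) < s := hs1
    linarith
  rw [zetaR_eq_tsum K hsum]
  have hZ : 0 < ∑' n : ℕ, (idealCount K n : ℝ) * (n : ℝ) ^ (-s) := by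
    by_contra hcon
    exact absurd hs2 (not_lt.mpr (mul_nonpos_of_nonneg_of_nonpos hs1'.le (not_lt.mp hcon)))
  rw [Real.log_mul hs1'.ne' hZ.ne'] at hs
  rw [one_div, Real.log_inv]
  have : Real.log (∑' n : ℕ, (idealCount K n : ℝ) * (n : ℝ) ^ (-s)) - -Real.log (s - 1) =
      Real.log (s - 1) + Real.log (∑' n : ℕ, (idealCount K n : ℝ) * (n : ℝ) ^ (-s)) := by ring
  rw [this]
  exact hs.le

end Fermat.Agent.ESlib
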