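import Fermat.Agent.ES.Z.Euler
import Fermat.Agent.ES.Z.ZetaReal
import Fermat.Agent.ES.Z.Primes

/-!
# ES, part Z: `∑_p a_p(K) p^{-s} = log ζ_K(s) + O(1)`
-/

set_option autoImplicit false

open scoped NumberField Topology
open Filter

namespace Fermat.Agent.ESlib

theorem exp_sub_sq_le {x : ℝ} (hx : 0 ≤ x) : Real.exp (x - x ^ 2) ≤ 1 + x := by
  have h1 : 0 < 1 - x + x ^ 2 := by nlinarith [sq_nonneg (x - 1 / 2)]
  have h2 : 1 - x + x ^ 2 ≤ Real.exp (-(x - x ^ 2)) := by
    have := Real.add_one_le_exp (-(x - x ^ 2))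
    linarith
  rw [Real.exp_neg] at h2
  have h3 : 0 < Real.exp (x - x ^ 2) := Real.exp_pos _
  have h4 : Real.exp (x - x ^ 2) * (1 - x + x ^ 2) ≤ 1 := by
    have := mul_le_mul_of_nonneg_left h2 h3.le
    rwa [mul_inv_cancel₀ h3.ne'] at this
  have h5 : 1 ≤ (1 + x) * (1 - x + x ^ 2) := by nlinarith [pow_nonneg hx 3]
  by_contra hcon
  push Not at hcon
  have := mul_lt_mul_of_pos_right hcon h1
  linarith

theorem inv_one_sub_le_exp {x : ℝ} (hx : 0 ≤ x) (hx' : x ≤ 1 / 2) :
    (1 - x)⁻¹ ≤ Real.exp (x + 2 * x ^ 2) := by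
  have h1 : 0 < 1 - x := by linarith
  have h2 : (1 - x)⁻¹ ≤ 1 + x + 2 * x ^ 2 := by
    rw [inv_le_iff_one_le_mul₀ h1]
    nlinarith [mul_nonneg (sq_nonneg x) (by linarith : 0 ≤ 1 - 2 * x)]
  have := Real.add_one_le_exp (x + 2 * x ^ 2)
  linarith

variable (K : Type*) [Field K] [NumberField K]

/-- `∑_p p^{-2}` -/
noncomputable def primeZeta2 : ℝ := ∑' p : Nat.Primes, ((p : ℕ) : ℝ) ^ (-2 : ℝ)

theorem summable_primeZeta2 : Summable (fun p : Nat.Primes => ((p : ℕ) : ℝ) ^ (-2 : ℝ)) :=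
  Nat.Primes.summable_rpow.mpr (by norm_num)

theorem primeZeta2_nonneg : 0 ≤ primeZeta2 :=
  tsum_nonneg (fun _ => Real.rpow_nonneg (Nat.cast_nonneg _) _)

theorem summable_primeSum {s : ℝ} (hs : 1 < s) :
    Summable (fun p : Nat.Primes => (idealCount K (p : ℕ) : ℝ) * ((p : ℕ) : ℝ) ^ (-s)) := by
  refine Summable.of_nonneg_of_le
    (fun p => mul_nonneg (Nat.cast_nonneg _) (Real.rpow_nonneg (Nat.cast_nonneg _) _))
    (fun p => ?_) ((Nat.Primes.summable_rpow.mpr (by linarith : -s < -1)).mul_left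
      (Module.finrank ℚ K : ℝ))
  exact mul_le_mul_of_nonneg_right (by exact_mod_cast idealCount_prime_le K p.2)
    (Real.rpow_nonneg (Nat.cast_nonneg _) _)

theorem card_le_idealCount (n : ℕ) (T : Finset (Ideal (𝓞 K)))
    (h : ∀ P ∈ T, Ideal.absNorm P = n) : T.card ≤ idealCount K n := by
  classical
  have hfin := Ideal.finite_setOfPred_absNorm_eq (S := 𝓞 K) n
  have h1 : idealCount K n = hfin.toFinset.card := by
    rw [idealCount, ← Set.ncard_eq_toFinset_card _ hfin]
    rfl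
  rw [h1]
  refine Finset.card_le_card (fun P hP => ?_)
  simpa using h P hP

/-- the finite set of ideals of norm in a finite set of primes -/
noncomputable def fiberFinset (U : Finset Nat.Primes) : Finset (Ideal (𝓞 K)) := by
  classical
  exact U.biUnion (fun p => (Ideal.finite_setOfPred_absNorm_eq (S := 𝓞 K) (p : ℕ)).toFinset)

theorem sum_fiberFinset (U : Finset Nat.Primes) (F : ℕ → ℝ) :
    ∑ P ∈ fiberFinset K U, F (Ideal.absNorm P) = ∑ p ∈ U, (idealCount K (p : ℕ) : ℝ) * F p := by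
  classical
  rw [fiberFinset, Finset.sum_biUnion]
  · refine Finset.sum_congr rfl (fun p _ => ?_)
    have hfin := Ideal.finite_setOfPred_absNorm_eq (S := 𝓞 K) (p : ℕ)
    have h1 : idealCount K (p : ℕ) = hfin.toFinset.card := by
      rw [idealCount, ← Set.ncard_eq_toFinset_card _ hfin]
      rfl
    rw [h1, ← nsmul_eq_mul, ← Finset.sum_const]
    refine Finset.sum_congr rfl (fun P hP => ?_)
    have : Ideal.absNorm P = (p : ℕ) := by simpa using hP
    rw [this]
  · intro p _ q _ hpq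
    rw [Function.onFun, Finset.disjoint_left]
    intro P hP hQ
    apply hpq
    have h1 : Ideal.absNorm P = (p : ℕ) := by simpa using hP
    have h2 : Ideal.absNorm P = (q : ℕ) := by simpa using hQ
    exact Subtype.ext (h1.symm.trans h2)

theorem prime_of_mem_fiberFinset (U : Finset Nat.Primes) (P : Ideal (𝓞 K))
    (hP : P ∈ fiberFinset K U) : Prime P := by
  classical
  rw [fiberFinset, Finset.mem_biUnion] at hP
  obtain ⟨p, _, hp⟩ := hP
  exact (prime_of_absNorm_eq K p.2 P (by simpa using hp)).1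

theorem one_le_zetaR {s : ℝ} (hsum : Summable (normWeight K s)) : 1 ≤ zetaR K s := by
  have := prod_one_add_le_tsum (normWeight K s) (normWeight_nonneg K s) hsum ∅ (by simp)
  rw [Finset.prod_empty] at this
  exact this

/-- upper bound for the prime sum -/
theorem primeSum_le {s : ℝ} (hs : 1 < s) (hsum : Summable (normWeight K s)) :
    primeSum K s ≤ Real.log (zetaR K s) + Module.finrank ℚ K * primeZeta2 := by
  refine (summable_primeSum K hs).tsum_le_of_sum_le (fun U => ?_)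
  have hpos : 0 < zetaR K s := lt_of_lt_of_le one_pos (one_le_zetaR K hsum)
  have h1 := prod_one_add_le_tsum (normWeight K s) (normWeight_nonneg K s) hsum (fiberFinset K U)
    (prime_of_mem_fiberFinset K U)
  have h2 : Real.exp (∑ P ∈ fiberFinset K U, (normWeight K s P - normWeight K s P ^ 2)) ≤
      ∏ P ∈ fiberFinset K U, (1 + normWeight K s P) := by
    rw [Real.exp_sum]
    exact Finset.prod_le_prod (fun _ _ => (Real.exp_pos _).le)
      (fun P _ => exp_sub_sq_le (normWeight_nonneg K s P))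
  have h3 : ∑ P ∈ fiberFinset K U, (normWeight K s P - normWeight K s P ^ 2) ≤
      Real.log (zetaR K s) := by
    rw [Real.le_log_iff_exp_le hpos]
    exact h2.trans h1
  have h4 := sum_fiberFinset K U (fun n => (n : ℝ) ^ (-s) - ((n : ℝ) ^ (-s)) ^ 2)
  have h5 : ∑ P ∈ fiberFinset K U, (normWeight K s P - normWeight K s P ^ 2) =
      ∑ p ∈ U, (idealCount K (p : ℕ) : ℝ) * (((p : ℕ) : ℝ) ^ (-s) - (((p : ℕ) : ℝ) ^ (-s)) ^ 2) :=
    h4
  rw [h5] at h3
  have h6 : ∑ p ∈ U, (idealCount K (p : ℕ) : ℝ) * (((p : ℕ) : ℝ) ^ (-s)) ^ 2 ≤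
      Module.finrank ℚ K * primeZeta2 := by
    calc ∑ p ∈ U, (idealCount K (p : ℕ) : ℝ) * (((p : ℕ) : ℝ) ^ (-s)) ^ 2
        ≤ ∑ p ∈ U, (Module.finrank ℚ K : ℝ) * ((p : ℕ) : ℝ) ^ (-2 : ℝ) := by
          refine Finset.sum_le_sum (fun p _ => ?_)
          have hp1 : (1 : ℝ) ≤ ((p : ℕ) : ℝ) := by exact_mod_cast p.2.one_le
          refine mul_le_mul (by exact_mod_cast idealCount_prime_le K p.2) ?_ (sq_nonneg _)
            (Nat.cast_nonneg _)
          rw [← Real.rpow_natCast, ← Real.rpow_mul (Nat.cast_nonneg _)]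
          refine Real.rpow_le_rpow_of_exponent_le hp1 ?_
          push_cast
          linarith
      _ = (Module.finrank ℚ K : ℝ) * ∑ p ∈ U, ((p : ℕ) : ℝ) ^ (-2 : ℝ) := by
          rw [Finset.mul_sum]
      _ ≤ Module.finrank ℚ K * primeZeta2 := by
          refine mul_le_mul_of_nonneg_left ?_ (Nat.cast_nonneg _)
          exact summable_primeZeta2.sum_le_tsum _
            (fun _ _ => Real.rpow_nonneg (Nat.cast_nonneg _) _)
  have h7 : ∑ p ∈ U, (idealCount K (p : ℕ) : ℝ) *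
      (((p : ℕ) : ℝ) ^ (-s) - (((p : ℕ) : ℝ) ^ (-s)) ^ 2) =
      ∑ p ∈ U, (idealCount K (p : ℕ) : ℝ) * ((p : ℕ) : ℝ) ^ (-s) -
        ∑ p ∈ U, (idealCount K (p : ℕ) : ℝ) * (((p : ℕ) : ℝ) ^ (-s)) ^ 2 := by
    rw [← Finset.sum_sub_distrib]
    exact Finset.sum_congr rfl (fun p _ => by ring)
  rw [h7] at h3
  linarith

open Classical in
/-- a rational prime below a prime ideal (junk value `2` for non-primes) -/
noncomputable def primeBelow (P : Ideal (𝓞 K)) : Nat.Primes :=
  if h : Prime P then ⟨(exists_prime_mem K P h).choose, (exists_prime_mem K P h).choose_spec.1⟩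
  else ⟨2, Nat.prime_two⟩

theorem primeBelow_spec (P : Ideal (𝓞 K)) (h : Prime P) :
    ((primeBelow K P : ℕ) : 𝓞 K) ∈ P ∧
      ∃ f : ℕ, 1 ≤ f ∧ Ideal.absNorm P = (primeBelow K P : ℕ) ^ f := by
  have e : primeBelow K P =
      ⟨(exists_prime_mem K P h).choose, (exists_prime_mem K P h).choose_spec.1⟩ := by
    unfold primeBelow
    exact dif_pos h
  rw [e]
  exact (exists_prime_mem K P h).choose_spec.2

/-- pointwise bound of the local terms -/
theorem local_term_le {s : ℝ} (hs : 1 < s) (P : Ideal (𝓞 K)) (h : Prime P) :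
    normWeight K s P + 2 * normWeight K s P ^ 2 ≤
      (if Ideal.absNorm P = (primeBelow K P : ℕ) then ((primeBelow K P : ℕ) : ℝ) ^ (-s) else 0) +
        3 * ((primeBelow K P : ℕ) : ℝ) ^ (-2 : ℝ) := by
  obtain ⟨-, f, hf, hN⟩ := primeBelow_spec K P h
  set p : ℕ := (primeBelow K P : ℕ) with hp
  have hpp : p.Prime := (primeBelow K P).2
  have hp1 : (1 : ℝ) ≤ (p : ℝ) := by exact_mod_cast hpp.one_le
  have hp0 : (0 : ℝ) < (p : ℝ) := by linarith
  have hw : normWeight K s P = (p : ℝ) ^ (-(f * s)) := by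
    rw [normWeight_apply, hN, Nat.cast_pow, ← Real.rpow_natCast, ← Real.rpow_mul hp0.le]
    congr 1
    ring
  have hf' : (1 : ℝ) ≤ (f : ℝ) := by exact_mod_cast hf
  have hsq : normWeight K s P ^ 2 ≤ (p : ℝ) ^ (-2 : ℝ) := by
    rw [hw, ← Real.rpow_natCast, ← Real.rpow_mul hp0.le]
    refine Real.rpow_le_rpow_of_exponent_le hp1 ?_
    push_cast
    nlinarith
  rcases Nat.lt_or_ge 1 f with hf2 | hf1
  · have hne : Ideal.absNorm P ≠ p := by
      rw [hN]
      intro h1
      have : p ^ f = p ^ 1 := by rw [h1, pow_one]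
      have := Nat.pow_right_injective hpp.two_le this
      omega
    rw [if_neg hne]
    have hf2' : (2 : ℝ) ≤ (f : ℝ) := by exact_mod_cast hf2
    have : normWeight K s P ≤ (p : ℝ) ^ (-2 : ℝ) := by
      rw [hw]
      refine Real.rpow_le_rpow_of_exponent_le hp1 ?_
      nlinarith
    linarith
  · have hf1' : f = 1 := le_antisymm hf1 hf
    have he : Ideal.absNorm P = p := by rw [hN, hf1', pow_one]
    rw [if_pos he]
    have : normWeight K s P = (p : ℝ) ^ (-s) := by
      rw [hw, hf1']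
      simp
    have h3 : 0 ≤ (p : ℝ) ^ (-2 : ℝ) := Real.rpow_nonneg hp0.le _
    linarith

theorem normWeight_le_half {s : ℝ} (hs : 1 < s) (P : Ideal (𝓞 K)) (h : Prime P) :
    normWeight K s P ≤ 1 / 2 := by
  obtain ⟨-, f, hf, hN⟩ := primeBelow_spec K P h
  have hpp : (primeBelow K P : ℕ).Prime := (primeBelow K P).2
  have h2 : 2 ≤ Ideal.absNorm P := by
    rw [hN]
    exact hpp.two_le.trans (Nat.le_self_pow (by omega) _)
  have h2' : (2 : ℝ) ≤ (Ideal.absNorm P : ℝ) := by exact_mod_cast h2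
  rw [normWeight_apply, Real.rpow_neg (Nat.cast_nonneg _), one_div]
  refine inv_anti₀ (by norm_num) ?_
  calc (2 : ℝ) ≤ (Ideal.absNorm P : ℝ) := h2'
    _ = (Ideal.absNorm P : ℝ) ^ (1 : ℝ) := (Real.rpow_one _).symm
    _ ≤ (Ideal.absNorm P : ℝ) ^ s := Real.rpow_le_rpow_of_exponent_le (by linarith) hs.le

theorem sum_local_le {s : ℝ} (hs : 1 < s) (T : Finset (Ideal (𝓞 K))) (hT : ∀ P ∈ T, Prime P) :
    ∑ P ∈ T, (normWeight K s P + 2 * normWeight K s P ^ 2) ≤
      primeSum K s + 3 * Module.finrank ℚ K * primeZeta2 := by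
  classical
  set G : Ideal (𝓞 K) → ℝ := fun P =>
    (if Ideal.absNorm P = (primeBelow K P : ℕ) then ((primeBelow K P : ℕ) : ℝ) ^ (-s) else 0) +
        3 * ((primeBelow K P : ℕ) : ℝ) ^ (-2 : ℝ) with hG
  have h1 : ∑ P ∈ T, (normWeight K s P + 2 * normWeight K s P ^ 2) ≤ ∑ P ∈ T, G P :=
    Finset.sum_le_sum (fun P hP => local_term_le K hs P (hT P hP))
  refine h1.trans ?_
  rw [← Finset.sum_fiberwise_of_maps_to (s := T) (t := T.image (primeBelow K))
    (g := primeBelow K) (fun P hP => Finset.mem_image_of_mem _ hP)]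
  have h2 : ∀ p ∈ T.image (primeBelow K), ∑ P ∈ T with primeBelow K P = p, G P ≤
      (idealCount K (p : ℕ) : ℝ) * ((p : ℕ) : ℝ) ^ (-s) +
        3 * Module.finrank ℚ K * ((p : ℕ) : ℝ) ^ (-2 : ℝ) := by
    intro p _
    have e1 : ∑ P ∈ T with primeBelow K P = p, G P =
        ∑ P ∈ T with primeBelow K P = p,
          ((if Ideal.absNorm P = (p : ℕ) then ((p : ℕ) : ℝ) ^ (-s) else 0) +
            3 * ((p : ℕ) : ℝ) ^ (-2 : ℝ)) := by
      refine Finset.sum_congr rfl (fun P hP => ?_)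
      rw [hG]
      simp only
      rw [(Finset.mem_filter.mp hP).2]
    rw [e1, Finset.sum_add_distrib, ← Finset.sum_filter, Finset.sum_const, Finset.sum_const,
      nsmul_eq_mul, nsmul_eq_mul]
    have hr1 : 0 ≤ ((p : ℕ) : ℝ) ^ (-s) := Real.rpow_nonneg (Nat.cast_nonneg _) _
    have hr2 : 0 ≤ ((p : ℕ) : ℝ) ^ (-2 : ℝ) := Real.rpow_nonneg (Nat.cast_nonneg _) _
    have c1 : ((T.filter (fun P => primeBelow K P = p)).filter
        (fun P => Ideal.absNorm P = (p : ℕ))).card ≤ idealCount K (p : ℕ) :=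
      card_le_idealCount K _ _ (fun P hP => (Finset.mem_filter.mp hP).2)
    have c2 : (T.filter (fun P => primeBelow K P = p)).card ≤ Module.finrank ℚ K := by
      refine card_le_finrank_of_mem K p.2 _ (fun P hP => ?_)
      obtain ⟨hPT, hPp⟩ := Finset.mem_filter.mp hP
      refine ⟨Ideal.isPrime_of_prime (hT P hPT), ?_⟩
      rw [← hPp]
      exact (primeBelow_spec K P (hT P hPT)).1
    have c1' : (((T.filter (fun P => primeBelow K P = p)).filter
        (fun P => Ideal.absNorm P = (p : ℕ))).card : ℝ) ≤ (idealCount K (p : ℕ) : ℝ) := by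
      exact_mod_cast c1
    have c2' : ((T.filter (fun P => primeBelow K P = p)).card : ℝ) ≤ (Module.finrank ℚ K : ℝ) := by
      exact_mod_cast c2
    have := mul_le_mul_of_nonneg_right c1' hr1
    have := mul_le_mul_of_nonneg_right c2' hr2
    nlinarith
  refine (Finset.sum_le_sum h2).trans ?_
  have hsm : Summable (fun p : Nat.Primes => (idealCount K (p : ℕ) : ℝ) * ((p : ℕ) : ℝ) ^ (-s) +
        3 * Module.finrank ℚ K * ((p : ℕ) : ℝ) ^ (-2 : ℝ)) :=
    (summable_primeSum K hs).add (summable_primeZeta2.mul_left _)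
  refine (hsm.sum_le_tsum _ (fun p _ => add_nonneg
    (mul_nonneg (Nat.cast_nonneg _) (Real.rpow_nonneg (Nat.cast_nonneg _) _))
    (mul_nonneg (by positivity) (Real.rpow_nonneg (Nat.cast_nonneg _) _)))).trans ?_
  rw [(summable_primeSum K hs).tsum_add (summable_primeZeta2.mul_left _), tsum_mul_left]
  rfl

/-- lower bound for the prime sum -/
theorem log_zetaR_le {s : ℝ} (hs : 1 < s) (hsum : Summable (normWeight K s)) :
    Real.log (zetaR K s) ≤ primeSum K s + 3 * Module.finrank ℚ K * primeZeta2 := by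
  have hpos : 0 < zetaR K s := lt_of_lt_of_le one_pos (one_le_zetaR K hsum)
  rw [Real.log_le_iff_le_exp hpos]
  refine tsum_le_of_prod_inv_le (normWeight K s) (normWeight_nonneg K s)
    (normWeight_zero K (by linarith)) (fun P hP => ?_) _ (fun T hT => ?_)
  · have := normWeight_le_half K hs P hP
    linarith
  · refine le_trans ?_ (Real.exp_le_exp.mpr (sum_local_le K hs T hT))
    rw [Real.exp_sum]
    refine Finset.prod_le_prod (fun P hP => ?_) (fun P hP => ?_)
    · have := normWeight_le_half K hs P (hT P hP)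
      exact inv_nonneg.mpr (by linarith)
    · exact inv_one_sub_le_exp (normWeight_nonneg K s P) (normWeight_le_half K hs P (hT P hP))

/-- **(AN)** `∑_p a_p(K) p^{-s} = log (1/(s-1)) + O(1)` as `s → 1⁺`. -/
theorem primeSum_asymp :
    ∃ C : ℝ, ∀ᶠ s in 𝓝[>] (1 : ℝ), |primeSum K s - Real.log (1 / (s - 1))| ≤ C := by
  obtain ⟨C, hC⟩ := log_zetaR_asymp K
  refine ⟨C + 3 * Module.finrank ℚ K * primeZeta2, ?_⟩
  filter_upwards [hC, eventually_summable K, self_mem_nhdsWithin] with s h1 hsum hs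
  have hs' : (1 : ℝ) < s := hs
  have h2 := primeSum_le K hs' hsum
  have h3 := log_zetaR_le K hs' hsum
  have h4 : 0 ≤ (Module.finrank ℚ K : ℝ) * primeZeta2 :=
    mul_nonneg (Nat.cast_nonneg _) primeZeta2_nonneg
  rw [abs_le] at h1 ⊢
  constructor <;> nlinarith [h1.1, h1.2]

end Fermat.Agent.ESlib
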